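/-
GATE-P / S56 [P-FLAT], node S56-FLAT-SSASM (helper50), part (A): **the chain-count lemma**.

A descending chain of additive subgroups `H 0 ≥ H 1 ≥ … ≥ H n = ⊥` of an additive group, with
"leading-term" maps `φ i : G → T i` whose fibres on `H i` are contained in cosets of `H (i+1)`
(`φ i x = φ i y → x - y ∈ H (i+1)` for `x y ∈ H i`), satisfies
`Nat.card (H 0) ≤ ∏ i < n, Nat.card (T i)`.

This is the only counting principle used by the supersingular flat count: `H i` = the
equivariant homomorphisms `G_K → ad⁰` all of whose Kummer generators lie in `U^{(i)} K^{×p}`,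
`T i` = the twisted-equivariant maps into the graded piece `gr^i`.  No quotient modules, no
tensor products, cardinalities only.  Mathlib only.
-/
import Mathlib

set_option autoImplicit false

namespace Fermat.Agent.GP.Flat.SSAsm

section OneStep

variable {G : Type*} [AddGroup G] {T : Type*}

/-- one step: if the fibres of `φ` on `H` lie in cosets of `H'` then `H` injects into `T × H'`. -/
theorem exists_injective_of_fibre_coset (H H' : AddSubgroup G) (φ : G → T)
    (hφ : ∀ x ∈ H, ∀ y ∈ H, φ x = φ y → -y + x ∈ H') :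
    ∃ f : H → T × H', Function.Injective f := by
  classical
  -- a representative of each nonempty fibre
  let s : T → G := fun t => if h : ∃ y ∈ H, φ y = t then Classical.choose h else 0
  have hs : ∀ x ∈ H, s (φ x) ∈ H ∧ φ (s (φ x)) = φ x := by
    intro x hx
    have h : ∃ y ∈ H, φ y = φ x := ⟨x, hx, rfl⟩
    have : s (φ x) = Classical.choose h := dif_pos h
    rw [this]
    exact Classical.choose_spec h
  refine ⟨fun x => (φ x.1, ⟨-(s (φ x.1)) + x.1,
    hφ x.1 x.2 _ (hs x.1 x.2).1 (hs x.1 x.2).2.symm⟩), ?_⟩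
  intro x y hxy
  simp only [Prod.mk.injEq, Subtype.mk.injEq] at hxy
  obtain ⟨h1, h2⟩ := hxy
  rw [h1] at h2
  exact Subtype.ext (add_left_cancel h2)

/-- one step, cardinality form. -/
theorem card_le_mul_of_fibre_coset [Finite T] (H H' : AddSubgroup G) [Finite H'] (φ : G → T)
    (hφ : ∀ x ∈ H, ∀ y ∈ H, φ x = φ y → -y + x ∈ H') :
    Finite H ∧ Nat.card H ≤ Nat.card T * Nat.card H' := by
  obtain ⟨f, hf⟩ := exists_injective_of_fibre_coset H H' φ hφ
  have hfin : Finite H := Finite.of_injective f hf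
  refine ⟨hfin, ?_⟩
  have := Nat.card_le_card_of_injective f hf
  rwa [Nat.card_prod] at this

end OneStep

section Chain

variable {G : Type*} [AddGroup G]

/-- **the chain-count lemma.** -/
theorem chain_card (n : ℕ) (H : ℕ → AddSubgroup G) (hbot : H n = ⊥)
    (T : ℕ → Type*) [∀ i, Finite (T i)] (φ : ∀ i, G → T i)
    (hφ : ∀ i, i < n → ∀ x ∈ H i, ∀ y ∈ H i, φ i x = φ i y → -y + x ∈ H (i + 1)) :
    Finite (H 0) ∧ Nat.card (H 0) ≤ ∏ i ∈ Finset.range n, Nat.card (T i) := by
  -- downward induction: `card (H (n - j)) ≤ ∏_{i ∈ [n-j, n)} card (T i)`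
  have key : ∀ j : ℕ, j ≤ n → Finite (H (n - j)) ∧
      Nat.card (H (n - j)) ≤ ∏ i ∈ Finset.Ico (n - j) n, Nat.card (T i) := by
    intro j
    induction j with
    | zero =>
      intro _
      rw [Nat.sub_zero, hbot]
      refine ⟨inferInstance, ?_⟩
      simp
    | succ j ih =>
      intro hj
      obtain ⟨hfin, hcard⟩ := ih (Nat.le_of_succ_le hj)
      have hlt : n - (j + 1) < n := by omega
      have hsucc : n - (j + 1) + 1 = n - j := by omega
      have hstep := hφ (n - (j + 1)) hlt
      rw [hsucc] at hstep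
      obtain ⟨hfin', hcard'⟩ := card_le_mul_of_fibre_coset (H (n - (j + 1))) (H (n - j))
        (φ (n - (j + 1))) hstep
      refine ⟨hfin', hcard'.trans ?_⟩
      have hIco : Finset.Ico (n - (j + 1)) n = insert (n - (j + 1)) (Finset.Ico (n - j) n) := by
        ext a
        simp only [Finset.mem_Ico, Finset.mem_insert]
        omega
      rw [hIco, Finset.prod_insert (by simp only [Finset.mem_Ico]; omega)]
      exact Nat.mul_le_mul_left _ hcard
  have := key n le_rfl
  rw [Nat.sub_self] at this
  rw [Finset.range_eq_Ico]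
  exact this

/-- variant: all `T i` trivial except possibly one index `i₀ < n`. -/
theorem chain_card_single (n : ℕ) (H : ℕ → AddSubgroup G) (hbot : H n = ⊥)
    (T : ℕ → Type*) [∀ i, Finite (T i)] (φ : ∀ i, G → T i)
    (hφ : ∀ i, i < n → ∀ x ∈ H i, ∀ y ∈ H i, φ i x = φ i y → -y + x ∈ H (i + 1))
    (i₀ : ℕ) (hi₀ : i₀ < n) (hT : ∀ i, i < n → i ≠ i₀ → Nat.card (T i) = 1) :
    Finite (H 0) ∧ Nat.card (H 0) ≤ Nat.card (T i₀) := by
  obtain ⟨hfin, hcard⟩ := chain_card n H hbot T φ hφ
  refine ⟨hfin, hcard.trans ?_⟩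
  rw [← Finset.mul_prod_erase (Finset.range n) _ (Finset.mem_range.2 hi₀)]
  have : ∏ i ∈ (Finset.range n).erase i₀, Nat.card (T i) = 1 := by
    refine Finset.prod_eq_one fun i hi => ?_
    rw [Finset.mem_erase, Finset.mem_range] at hi
    exact hT i hi.2 hi.1
  rw [this, mul_one]

end Chain

end Fermat.Agent.GP.Flat.SSAsm
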