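/-
GATE-P / S56 [P-FLAT], node S56-FLAT-SSASM (helper50), part (D): **the graded pieces `T_i`**.

Abstract finite-field form of the supersingular eigen-count.  `k`, `Ω` fields of characteristic
`p` (`k` = the coefficient field, finite; `Ω` = the residue field of `ℚ̄` at `P | p`).  A *`T`-map
of level data `(b₀, tφ)`* is an additive `Λ : M₂(k) → Ω` (the leading coefficients
`Y ↦ lc_i (u_Y)` of the Kummer generators of `g ↦ Tr_{k/𝔽_p} tr (Y · h g)`) with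

* `scalar`  : `Λ (y • 1) = 0`                                (`h` is traceless),
* `inertia` : `Λ (w₀ • (R₀ Y R₀⁻¹)) = b₀ * Λ Y`              (`s₀ ∈ I`, `R s₀ = diag (c₀, d₀)`,
                                                              `w₀ = ω(s₀)`, `b₀ = θ(s₀)^i`),
* `frob`    : `Λ (wφ • (Rφ Y Rφ⁻¹)) = tφ * (Λ Y) ^ p`        (`φ` a Frobenius, `R φ = [[0,1],[x,0]]`,
                                                              `wφ = ω(φ)`, `tφ = θ(φ)^i`).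

Results (`a₁₂ := w₀ c₀ d₀⁻¹`, the eigenvalue of `s₀` on the `E₁₂`-line of `ad⁰(1)`):
* `IsTMap.eq_zero` : `(w₀ : Ω) ≠ b₀` and a polynomial `P ∈ ℤ[X]` with `P(a₁₂) = 0 ≠ P(b₀)` ⟹ `Λ = 0`;
* `IsTMap.card_le` : `(w₀ : Ω) ≠ b₀`, `a₁₂ ^ p ≠ a₁₂` ⟹ the `T`-maps form a finite set with at most
  `#k` elements.
Mathlib only.
-/
import Mathlib

set_option autoImplicit false

open Matrix Polynomial

namespace Fermat.Agent.GP.Flat.SSAsm

/-! ### additive maps between fields of characteristic `p` -/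

section Additive

variable {k Ω : Type*} [Field k] [Field Ω]

theorem map_natCast_mul' (Λ : k →+ Ω) (n : ℕ) (y : k) : Λ ((n : k) * y) = (n : Ω) * Λ y := by
  rw [← nsmul_eq_mul, map_nsmul, nsmul_eq_mul]

theorem map_intCast_mul' (Λ : k →+ Ω) (n : ℤ) (y : k) : Λ ((n : k) * y) = (n : Ω) * Λ y := by
  rw [← zsmul_eq_mul, map_zsmul, zsmul_eq_mul]

/-- an eigen-relation `Λ (a y) = b Λ y` propagates to integer polynomials. -/
theorem map_aeval_mul (Λ : k →+ Ω) {a : k} {b : Ω} (h : ∀ y, Λ (a * y) = b * Λ y)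
    (P : ℤ[X]) (y : k) : Λ (aeval a P * y) = aeval b P * Λ y := by
  induction P using Polynomial.induction_on generalizing y with
  | C n =>
    rw [aeval_C, aeval_C, algebraMap_int_eq, algebraMap_int_eq, eq_intCast, eq_intCast,
      map_intCast_mul']
  | add P Q hP hQ => rw [map_add, map_add, add_mul, add_mul, map_add, hP, hQ]
  | monomial n c ih =>
    have e1 : aeval a (C c * X ^ (n + 1)) * y = aeval a (C c * X ^ n) * (a * y) := by
      simp only [map_mul, map_pow, aeval_X, aeval_C, pow_succ]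
      ring
    have e2 : aeval b (C c * X ^ (n + 1)) * Λ y = aeval b (C c * X ^ n) * (b * Λ y) := by
      simp only [map_mul, map_pow, aeval_X, aeval_C, pow_succ]
      ring
    rw [e1, e2, ih, h]

/-- **mismatch**: if `a` and `b` are separated by an integer polynomial, the map vanishes. -/
theorem eq_zero_of_mismatch (Λ : k →+ Ω) {a : k} {b : Ω} (h : ∀ y, Λ (a * y) = b * Λ y)
    (P : ℤ[X]) (hPa : aeval a P = 0) (hPb : aeval b P ≠ 0) : Λ = 0 := by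
  ext y
  have := map_aeval_mul Λ h P y
  rw [hPa, zero_mul, map_zero] at this
  rcases mul_eq_zero.1 this.symm with h0 | h0
  · exact absurd h0 hPb
  · simpa using h0

end Additive

/-! ### explicit `2 × 2` conjugations -/

section Conj

variable {k : Type*} [Field k]

theorem diag_conj_fin_two (a d a' d' : k) (y₁ y₂ y₃ y₄ : k) :
    !![a, 0; 0, d] * !![y₁, y₂; y₃, y₄] * !![a', 0; 0, d'] =
      !![a * y₁ * a', a * y₂ * d'; d * y₃ * a', d * y₄ * d'] := by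
  simp

theorem anti_conj_fin_two (x x' : k) (y₁ y₂ y₃ y₄ : k) :
    !![0, 1; x, 0] * !![y₁, y₂; y₃, y₄] * !![0, x'; 1, 0] =
      !![y₄, y₃ * x'; x * y₂, x * y₁ * x'] := by
  simp

theorem smul_fin_two' (c : k) (y₁ y₂ y₃ y₄ : k) :
    c • !![y₁, y₂; y₃, y₄] = !![c * y₁, c * y₂; c * y₃, c * y₄] := by
  simp

end Conj

/-! ### `T`-maps -/

section TMap

variable {k Ω : Type*} [Field k] [Field Ω]

/-- the four entry maps of an additive map on `M₂(k)`. -/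
def ent11 (Λ : Matrix (Fin 2) (Fin 2) k →+ Ω) : k →+ Ω where
  toFun y := Λ !![y, 0; 0, 0]
  map_zero' := by
    have : (!![0, 0; 0, 0] : Matrix (Fin 2) (Fin 2) k) = 0 := by
      ext i j; fin_cases i <;> fin_cases j <;> rfl
    rw [this, map_zero]
  map_add' y z := by
    rw [← map_add]
    congr 1
    ext i j; fin_cases i <;> fin_cases j <;> simp

def ent12 (Λ : Matrix (Fin 2) (Fin 2) k →+ Ω) : k →+ Ω where
  toFun y := Λ !![0, y; 0, 0]
  map_zero' := by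
    have : (!![0, 0; 0, 0] : Matrix (Fin 2) (Fin 2) k) = 0 := by
      ext i j; fin_cases i <;> fin_cases j <;> rfl
    rw [this, map_zero]
  map_add' y z := by
    rw [← map_add]
    congr 1
    ext i j; fin_cases i <;> fin_cases j <;> simp

def ent21 (Λ : Matrix (Fin 2) (Fin 2) k →+ Ω) : k →+ Ω where
  toFun y := Λ !![0, 0; y, 0]
  map_zero' := by
    have : (!![0, 0; 0, 0] : Matrix (Fin 2) (Fin 2) k) = 0 := by
      ext i j; fin_cases i <;> fin_cases j <;> rfl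
    rw [this, map_zero]
  map_add' y z := by
    rw [← map_add]
    congr 1
    ext i j; fin_cases i <;> fin_cases j <;> simp

def ent22 (Λ : Matrix (Fin 2) (Fin 2) k →+ Ω) : k →+ Ω where
  toFun y := Λ !![0, 0; 0, y]
  map_zero' := by
    have : (!![0, 0; 0, 0] : Matrix (Fin 2) (Fin 2) k) = 0 := by
      ext i j; fin_cases i <;> fin_cases j <;> rfl
    rw [this, map_zero]
  map_add' y z := by
    rw [← map_add]
    congr 1
    ext i j; fin_cases i <;> fin_cases j <;> simp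

theorem ent11_apply (Λ : Matrix (Fin 2) (Fin 2) k →+ Ω) (y : k) :
    ent11 Λ y = Λ !![y, 0; 0, 0] := rfl
theorem ent12_apply (Λ : Matrix (Fin 2) (Fin 2) k →+ Ω) (y : k) :
    ent12 Λ y = Λ !![0, y; 0, 0] := rfl
theorem ent21_apply (Λ : Matrix (Fin 2) (Fin 2) k →+ Ω) (y : k) :
    ent21 Λ y = Λ !![0, 0; y, 0] := rfl
theorem ent22_apply (Λ : Matrix (Fin 2) (Fin 2) k →+ Ω) (y : k) :
    ent22 Λ y = Λ !![0, 0; 0, y] := rfl

/-- an additive map on `M₂(k)` is the sum of its entry maps. -/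
theorem apply_eq_sum_ent (Λ : Matrix (Fin 2) (Fin 2) k →+ Ω) (Y : Matrix (Fin 2) (Fin 2) k) :
    Λ Y = ent11 Λ (Y 0 0) + ent12 Λ (Y 0 1) + ent21 Λ (Y 1 0) + ent22 Λ (Y 1 1) := by
  rw [ent11_apply, ent12_apply, ent21_apply, ent22_apply, ← map_add, ← map_add, ← map_add]
  congr 1
  ext i j; fin_cases i <;> fin_cases j <;> simp

/-- **`T`-maps.** -/
structure IsTMap (p : ℕ) (c₀ d₀ : k) (w₀ : ℕ) (b₀ : Ω) (x : k) (wφ : ℕ) (tφ : Ω)
    (Λ : Matrix (Fin 2) (Fin 2) k →+ Ω) : Prop where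
  scalar : ∀ y : k, Λ !![y, 0; 0, y] = 0
  inertia : ∀ Y : Matrix (Fin 2) (Fin 2) k,
    Λ ((w₀ : k) • (!![c₀, 0; 0, d₀] * Y * !![c₀⁻¹, 0; 0, d₀⁻¹])) = b₀ * Λ Y
  frob : ∀ Y : Matrix (Fin 2) (Fin 2) k,
    Λ ((wφ : k) • (!![0, 1; x, 0] * Y * !![0, x⁻¹; 1, 0])) = tφ * Λ Y ^ p

theorem isTMap_zero (p : ℕ) (hp : p ≠ 0) (c₀ d₀ : k) (w₀ : ℕ) (b₀ : Ω) (x : k) (wφ : ℕ) (tφ : Ω) :
    IsTMap p c₀ d₀ w₀ b₀ x wφ tφ (0 : Matrix (Fin 2) (Fin 2) k →+ Ω) :=
  ⟨fun _ => rfl, fun _ => by simp, fun _ => by simp [hp]⟩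

variable {p : ℕ} {c₀ d₀ : k} {w₀ : ℕ} {b₀ : Ω} {x : k} {wφ : ℕ} {tφ : Ω}
  {Λ : Matrix (Fin 2) (Fin 2) k →+ Ω}

namespace IsTMap

theorem ent11_rel (h : IsTMap p c₀ d₀ w₀ b₀ x wφ tφ Λ) (hc₀ : c₀ ≠ 0) (y : k) :
    ent11 Λ ((w₀ : k) * y) = b₀ * ent11 Λ y := by
  have := h.inertia !![y, 0; 0, 0]
  rw [diag_conj_fin_two, smul_fin_two'] at this
  simp only [mul_zero, zero_mul] at this
  have e : c₀ * y * c₀⁻¹ = y := by field_simp
  rw [e] at this
  rw [ent11_apply, ent11_apply, ← this]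

theorem ent22_rel (h : IsTMap p c₀ d₀ w₀ b₀ x wφ tφ Λ) (hd₀ : d₀ ≠ 0) (y : k) :
    ent22 Λ ((w₀ : k) * y) = b₀ * ent22 Λ y := by
  have := h.inertia !![0, 0; 0, y]
  rw [diag_conj_fin_two, smul_fin_two'] at this
  simp only [mul_zero, zero_mul] at this
  have e : d₀ * y * d₀⁻¹ = y := by field_simp
  rw [e] at this
  rw [ent22_apply, ent22_apply, ← this]

theorem ent12_rel (h : IsTMap p c₀ d₀ w₀ b₀ x wφ tφ Λ) (y : k) :
    ent12 Λ (((w₀ : k) * c₀ * d₀⁻¹) * y) = b₀ * ent12 Λ y := by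
  have := h.inertia !![0, y; 0, 0]
  rw [diag_conj_fin_two, smul_fin_two'] at this
  simp only [mul_zero, zero_mul] at this
  have e : (w₀ : k) * (c₀ * y * d₀⁻¹) = ((w₀ : k) * c₀ * d₀⁻¹) * y := by ring
  rw [e] at this
  rw [ent12_apply, ent12_apply, ← this]

theorem ent21_frob (h : IsTMap p c₀ d₀ w₀ b₀ x wφ tφ Λ) (y : k) :
    ent21 Λ ((wφ : k) * (x * y)) = tφ * ent12 Λ y ^ p := by
  have := h.frob !![0, y; 0, 0]
  rw [anti_conj_fin_two, smul_fin_two'] at this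
  simp only [mul_zero, zero_mul] at this
  rw [ent21_apply, ent12_apply, ← this]

theorem ent12_frob (h : IsTMap p c₀ d₀ w₀ b₀ x wφ tφ Λ) (y : k) :
    ent12 Λ ((wφ : k) * (y * x⁻¹)) = tφ * ent21 Λ y ^ p := by
  have := h.frob !![0, 0; y, 0]
  rw [anti_conj_fin_two, smul_fin_two'] at this
  simp only [mul_zero, zero_mul] at this
  rw [ent12_apply, ent21_apply, ← this]

/-- the diagonal entries vanish as soon as `ω(s₀) ≠ θ(s₀)^i`. -/
theorem ent11_eq_zero (h : IsTMap p c₀ d₀ w₀ b₀ x wφ tφ Λ) (hc₀ : c₀ ≠ 0)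
    (hw : (w₀ : Ω) ≠ b₀) : ent11 Λ = 0 := by
  ext y
  have h1 := h.ent11_rel hc₀ y
  rw [map_natCast_mul'] at h1
  have h2 : ((w₀ : Ω) - b₀) * ent11 Λ y = 0 := by rw [sub_mul, h1, sub_self]
  rcases mul_eq_zero.1 h2 with h3 | h3
  · exact absurd (sub_eq_zero.1 h3) hw
  · simpa using h3

theorem ent22_eq_zero (h : IsTMap p c₀ d₀ w₀ b₀ x wφ tφ Λ) (hd₀ : d₀ ≠ 0)
    (hw : (w₀ : Ω) ≠ b₀) : ent22 Λ = 0 := by
  ext y
  have h1 := h.ent22_rel hd₀ y
  rw [map_natCast_mul'] at h1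
  have h2 : ((w₀ : Ω) - b₀) * ent22 Λ y = 0 := by rw [sub_mul, h1, sub_self]
  rcases mul_eq_zero.1 h2 with h3 | h3
  · exact absurd (sub_eq_zero.1 h3) hw
  · simpa using h3

/-- `Λ₂₁` is determined by `Λ₁₂`. -/
theorem ent21_eq (h : IsTMap p c₀ d₀ w₀ b₀ x wφ tφ Λ) (hx : x ≠ 0) (hwφ : (wφ : k) ≠ 0) (y : k) :
    ent21 Λ y = tφ * ent12 Λ (((wφ : k) * x)⁻¹ * y) ^ p := by
  rw [← h.ent21_frob]
  congr 1
  field_simp

/-- a `T`-map with `ω(s₀) ≠ θ(s₀)^i` is determined by its `E₁₂`-entry. -/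
theorem eq_of_ent12_eq {Λ' : Matrix (Fin 2) (Fin 2) k →+ Ω}
    (h : IsTMap p c₀ d₀ w₀ b₀ x wφ tφ Λ) (h' : IsTMap p c₀ d₀ w₀ b₀ x wφ tφ Λ')
    (hc₀ : c₀ ≠ 0) (hd₀ : d₀ ≠ 0) (hx : x ≠ 0) (hwφ : (wφ : k) ≠ 0) (hw : (w₀ : Ω) ≠ b₀)
    (h12 : ent12 Λ = ent12 Λ') : Λ = Λ' := by
  ext Y
  rw [apply_eq_sum_ent Λ, apply_eq_sum_ent Λ', h.ent11_eq_zero hc₀ hw, h'.ent11_eq_zero hc₀ hw,
    h.ent22_eq_zero hd₀ hw, h'.ent22_eq_zero hd₀ hw, h.ent21_eq hx hwφ, h'.ent21_eq hx hwφ, h12]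

/-- **vanishing of the graded piece** at the levels whose inertia character does not match. -/
theorem eq_zero (h : IsTMap p c₀ d₀ w₀ b₀ x wφ tφ Λ) (hp : p ≠ 0)
    (hc₀ : c₀ ≠ 0) (hd₀ : d₀ ≠ 0) (hx : x ≠ 0) (hwφ : (wφ : k) ≠ 0) (hw : (w₀ : Ω) ≠ b₀)
    (P : ℤ[X]) (hPa : aeval ((w₀ : k) * c₀ * d₀⁻¹) P = 0) (hPb : aeval b₀ P ≠ 0) : Λ = 0 := by
  have h12 : ent12 Λ = 0 := eq_zero_of_mismatch (ent12 Λ) h.ent12_rel P hPa hPb
  refine h.eq_of_ent12_eq (isTMap_zero p hp c₀ d₀ w₀ b₀ x wφ tφ) hc₀ hd₀ hx hwφ hw ?_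
  rw [h12]
  ext y
  rfl

/-- the values of `Λ₁₂` are roots of `tφ^(p+1) X^(p²) - wφ² X`. -/
theorem ent12_root (h : IsTMap p c₀ d₀ w₀ b₀ x wφ tφ Λ) [CharP Ω p] [Fact p.Prime] (hx : x ≠ 0)
    (hwφ : (wφ : k) ≠ 0) (z : k) :
    tφ ^ (p + 1) * ent12 Λ z ^ p ^ 2 = ((wφ ^ 2 : ℕ) : Ω) * ent12 Λ z := by
  have h1 := h.ent12_frob ((wφ : k) * x * z)
  rw [h.ent21_eq hx hwφ] at h1
  have e1 : ((wφ : k) * x)⁻¹ * ((wφ : k) * x * z) = z := by
    rw [← mul_assoc, inv_mul_cancel₀ (mul_ne_zero hwφ hx), one_mul]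
  have e2 : (wφ : k) * ((wφ : k) * x * z * x⁻¹) = ((wφ ^ 2 : ℕ) : k) * z := by
    push_cast
    field_simp
  rw [e1, e2, map_natCast_mul'] at h1
  rw [h1]
  ring

end IsTMap

end TMap

section Gen

variable {k : Type*} [Field k] [Finite k]

/-- the subfield of a finite field generated by one element: all its elements are integer
polynomials in the generator. -/
noncomputable def genSubfield (a : k) : Subfield k where
  toSubring := ((aeval a : Polynomial ℤ →ₐ[ℤ] k).range).toSubring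
  inv_mem' := by
    classical
    rintro x ⟨P, rfl⟩
    change (aeval a P)⁻¹ ∈ Set.range (aeval a : Polynomial ℤ →ₐ[ℤ] k)
    by_cases hx : aeval a P = 0
    · rw [hx, _root_.inv_zero]
      exact ⟨0, by simp⟩
    · have : Fintype k := Fintype.ofFinite k
      have h1 : aeval a P ^ (Fintype.card k - 1) = 1 := FiniteField.pow_card_sub_one_eq_one _ hx
      have hcard : 2 ≤ Fintype.card k := Fintype.one_lt_card
      have h2 : (aeval a P)⁻¹ = aeval a P ^ (Fintype.card k - 2) := by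
        apply inv_eq_of_mul_eq_one_right
        rw [← pow_succ']
        have : Fintype.card k - 2 + 1 = Fintype.card k - 1 := by omega
        rw [this, h1]
      rw [h2]
      exact ⟨P ^ (Fintype.card k - 2), by simp⟩

omit [Finite k] in
theorem exists_of_mem_genSubfield [Finite k] {a x : k} (hx : x ∈ genSubfield a) :
    ∃ P : Polynomial ℤ, aeval a P = x := hx

theorem self_mem_genSubfield (a : k) : a ∈ genSubfield a := ⟨X, by simp⟩

/-- a generator outside the prime field generates at least `p²` elements. -/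
theorem sq_le_card_genSubfield {p : ℕ} [Fact p.Prime] [CharP k p] (a : k) (ha : a ^ p ≠ a) :
    p ^ 2 ≤ Nat.card (genSubfield a) := by
  classical
  have : Fintype (genSubfield a) := Fintype.ofFinite _
  obtain ⟨n, -, hn⟩ := FiniteField.card (genSubfield a) p
  rw [Nat.card_eq_fintype_card, hn]
  have hn2 : 2 ≤ (n : ℕ) := by
    by_contra hlt
    have h1 : (n : ℕ) = 1 := by
      have := n.pos
      omega
    rw [h1, pow_one] at hn
    have := FiniteField.pow_card (⟨a, self_mem_genSubfield a⟩ : genSubfield a)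
    rw [hn] at this
    exact ha (congrArg Subtype.val this)
  exact Nat.pow_le_pow_right (Fact.out : p.Prime).pos hn2

end Gen

section Count

variable {k Ω : Type*} [Field k] [Field Ω]

/-- the polynomial whose roots contain all values of `Λ₁₂`. -/
noncomputable def rootPoly (p : ℕ) (wφ : ℕ) (tφ : Ω) : Polynomial Ω :=
  C (tφ ^ (p + 1)) * X ^ p ^ 2 - C ((wφ ^ 2 : ℕ) : Ω) * X

theorem rootPoly_ne_zero {p : ℕ} (hp : 2 ≤ p) (wφ : ℕ) {tφ : Ω} (htφ : tφ ≠ 0) :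
    rootPoly p wφ tφ ≠ 0 := by
  intro h
  have h1 : (rootPoly p wφ tφ).coeff (p ^ 2) = tφ ^ (p + 1) := by
    have hne : p ^ 2 ≠ 1 := by
      have : 4 ≤ p ^ 2 := by nlinarith
      omega
    unfold rootPoly
    rw [coeff_sub, coeff_C_mul, coeff_X_pow, if_pos rfl, mul_one, coeff_C_mul, coeff_X,
      if_neg (Ne.symm hne), mul_zero, sub_zero]
  rw [h, coeff_zero] at h1
  exact pow_ne_zero _ htφ h1.symm

theorem rootPoly_natDegree_le (p : ℕ) (hp : 2 ≤ p) (wφ : ℕ) (tφ : Ω) :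
    (rootPoly p wφ tφ).natDegree ≤ p ^ 2 := by
  unfold rootPoly
  refine (natDegree_sub_le _ _).trans (max_le ?_ ?_)
  · exact (natDegree_C_mul_le _ _).trans (natDegree_X_pow_le _)
  · refine (natDegree_C_mul_le _ _).trans (natDegree_X_le.trans ?_)
    nlinarith

variable {p : ℕ} [Fact p.Prime] [Finite k] [CharP k p] [CharP Ω p]

/-- **the count of the graded piece**: at most `#k` `T`-maps. -/
theorem IsTMap.card_le (c₀ d₀ : k) (w₀ : ℕ) (b₀ : Ω) (x : k) (wφ : ℕ) (tφ : Ω)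
    (hc₀ : c₀ ≠ 0) (hd₀ : d₀ ≠ 0) (hx : x ≠ 0) (hwφ : (wφ : k) ≠ 0) (hw : (w₀ : Ω) ≠ b₀)
    (htφ : tφ ≠ 0) (ha : ((w₀ : k) * c₀ * d₀⁻¹) ^ p ≠ (w₀ : k) * c₀ * d₀⁻¹) :
    Finite {Λ : Matrix (Fin 2) (Fin 2) k →+ Ω // IsTMap p c₀ d₀ w₀ b₀ x wφ tφ Λ} ∧
      Nat.card {Λ : Matrix (Fin 2) (Fin 2) k →+ Ω // IsTMap p c₀ d₀ w₀ b₀ x wφ tφ Λ} ≤
        Nat.card k := by
  classical
  have hp : p.Prime := Fact.out
  set a : k := (w₀ : k) * c₀ * d₀⁻¹ with ha_def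
  have : Module.Finite (genSubfield a) k := Module.Finite.of_finite
  set n := Module.finrank (genSubfield a) k with hn
  let b : Module.Basis (Fin n) (genSubfield a) k := Module.finBasis (genSubfield a) k
  let Z : Finset Ω := (rootPoly p wφ tφ).roots.toFinset
  have hZ : Z.card ≤ p ^ 2 :=
    (Multiset.toFinset_card_le _).trans
      ((card_roots' _).trans (rootPoly_natDegree_le p hp.two_le wφ tφ))
  have hmemZ : ∀ (Λ : Matrix (Fin 2) (Fin 2) k →+ Ω), IsTMap p c₀ d₀ w₀ b₀ x wφ tφ Λ →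
      ∀ z : k, ent12 Λ z ∈ Z := by
    intro Λ hΛ z
    rw [Multiset.mem_toFinset, mem_roots (rootPoly_ne_zero hp.two_le wφ htφ)]
    unfold rootPoly
    rw [IsRoot.def, eval_sub, eval_mul, eval_mul, eval_C, eval_C, eval_pow, eval_X,
      hΛ.ent12_root hx hwφ z, sub_self]
  let ev : {Λ : Matrix (Fin 2) (Fin 2) k →+ Ω // IsTMap p c₀ d₀ w₀ b₀ x wφ tφ Λ} →
      (Fin n → Z) := fun Λ r => ⟨ent12 Λ.1 (b r), hmemZ Λ.1 Λ.2 (b r)⟩
  have hev : Function.Injective ev := by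
    intro Λ Λ' h
    apply Subtype.ext
    refine Λ.2.eq_of_ent12_eq Λ'.2 hc₀ hd₀ hx hwφ hw ?_
    ext y
    have hy : y = ∑ r, ((b.repr y r : genSubfield a) : k) * b r := by
      conv_lhs => rw [← b.sum_repr y]
      rfl
    have key : ∀ (Λ₁ : Matrix (Fin 2) (Fin 2) k →+ Ω), IsTMap p c₀ d₀ w₀ b₀ x wφ tφ Λ₁ →
        ∀ (l : genSubfield a) (z : k), ∃ P : Polynomial ℤ, aeval a P = (l : k) ∧
          ∀ (Λ₂ : Matrix (Fin 2) (Fin 2) k →+ Ω), IsTMap p c₀ d₀ w₀ b₀ x wφ tφ Λ₂ →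
            ent12 Λ₂ ((l : k) * z) = aeval b₀ P * ent12 Λ₂ z := by
      intro Λ₁ _ l z
      obtain ⟨P, hP⟩ := exists_of_mem_genSubfield l.2
      refine ⟨P, hP, fun Λ₂ hΛ₂ => ?_⟩
      rw [← hP]
      exact map_aeval_mul (ent12 Λ₂) hΛ₂.ent12_rel P z
    rw [hy, map_sum, map_sum]
    refine Finset.sum_congr rfl fun r _ => ?_
    obtain ⟨P, -, hP⟩ := key Λ.1 Λ.2 (b.repr y r) (b r)
    rw [hP Λ.1 Λ.2, hP Λ'.1 Λ'.2]
    have := congrFun h r
    have h' : ent12 Λ.1 (b r) = ent12 Λ'.1 (b r) := congrArg Subtype.val this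
    rw [h']
  have hfin : Finite {Λ : Matrix (Fin 2) (Fin 2) k →+ Ω // IsTMap p c₀ d₀ w₀ b₀ x wφ tφ Λ} :=
    Finite.of_injective ev hev
  refine ⟨hfin, ?_⟩
  calc Nat.card {Λ : Matrix (Fin 2) (Fin 2) k →+ Ω // IsTMap p c₀ d₀ w₀ b₀ x wφ tφ Λ}
      ≤ Nat.card (Fin n → Z) := Nat.card_le_card_of_injective ev hev
    _ = Z.card ^ n := by
        rw [Nat.card_fun, Nat.card_eq_fintype_card, Fintype.card_coe, Nat.card_eq_fintype_card,
          Fintype.card_fin]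
    _ ≤ (p ^ 2) ^ n := Nat.pow_le_pow_left hZ n
    _ ≤ Nat.card (genSubfield a) ^ n := Nat.pow_le_pow_left (sq_le_card_genSubfield a ha) n
    _ = Nat.card k := (Module.natCard_eq_pow_finrank (K := genSubfield a) (V := k)).symm

end Count
end Fermat.Agent.GP.Flat.SSAsm
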