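/-
GATE-P / S56 [P-FLAT], node S56-FLAT-SSASM (helper50), part (D), transposition:
**additive functionals on `M₂(k)` are trace functionals**.

`k` a finite field of characteristic `p`.  `trFun Y : M₂(k) →+ ZMod p`, `X ↦ Tr_{k/𝔽_p} tr (Y X)`.
* `trFun_injective`, `trFun_surjective` : `Y ↦ trFun Y` is a bijection `M₂(k) ≃ (M₂(k) →+ ZMod p)`;
* `trFun_conj` : `c • (trFun Y ∘ (R⁻¹ · R)) = trFun (c • (R Y R⁻¹))` — the twisted action `tw` of
  `GP/Flat/SSChainVec` on functionals is the twisted conjugation on matrices;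
* `trFun_scalar` : `trFun (y • 1)` kills the traceless matrices.
Mathlib only.
-/
import Mathlib

set_option autoImplicit false
set_option linter.style.haveILetI false

open Matrix

namespace Fermat.Agent.GP.Flat.SSAsm

section TraceRepr

variable (p : ℕ) [Fact p.Prime] {k : Type*} [Field k] [CharP k p]

/-- the trace functional `X ↦ Tr_{k/𝔽_p} tr (Y X)`. -/
noncomputable def trFun (Y : Matrix (Fin 2) (Fin 2) k) : Matrix (Fin 2) (Fin 2) k →+ ZMod p :=
  letI := ZMod.algebra k p
  ((Algebra.trace (ZMod p) k).toAddMonoidHom).comp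
    ((Matrix.traceAddMonoidHom (Fin 2) k).comp (AddMonoidHom.mulLeft Y))

theorem trFun_apply (Y X : Matrix (Fin 2) (Fin 2) k) :
    trFun p Y X = (letI := ZMod.algebra k p; Algebra.trace (ZMod p) k (Y * X).trace) := rfl

theorem trFun_add (Y Y' : Matrix (Fin 2) (Fin 2) k) : trFun p (Y + Y') = trFun p Y + trFun p Y' := by
  letI := ZMod.algebra k p
  ext X
  simp only [trFun_apply, AddMonoidHom.add_apply, Matrix.add_mul, Matrix.trace_add, map_add]

theorem trFun_zero : trFun p (0 : Matrix (Fin 2) (Fin 2) k) = 0 := by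
  letI := ZMod.algebra k p
  ext X
  simp only [trFun_apply, Matrix.zero_mul, Matrix.trace_zero, map_zero, AddMonoidHom.zero_apply]

/-- the map `Y ↦ trFun Y` as an additive hom. -/
noncomputable def trFunHom : Matrix (Fin 2) (Fin 2) k →+ (Matrix (Fin 2) (Fin 2) k →+ ZMod p) where
  toFun := trFun p
  map_zero' := trFun_zero p
  map_add' := trFun_add p

variable [Finite k]

theorem trFun_injective : Function.Injective (trFun p (k := k)) := by
  letI := ZMod.algebra k p
  have hnd := traceForm_nondegenerate (ZMod p) k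
  show Function.Injective (trFunHom p (k := k))
  rw [injective_iff_map_eq_zero (trFunHom p (k := k))]
  intro Y hY
  ext i j
  rw [Matrix.zero_apply]
  refine hnd.1 (Y i j) fun x => ?_
  rw [Algebra.traceForm_apply]
  have h := DFunLike.congr_fun hY (Matrix.single j i x)
  have h2 : (Y * Matrix.single j i x).trace = Y i j * x := by
    rw [Matrix.trace_mul_comm, Matrix.trace_single_mul]
    exact mul_comm _ _
  have h3 : (trFunHom p Y) (Matrix.single j i x) = Algebra.trace (ZMod p) k (Y i j * x) := by
    show trFun p Y _ = _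
    rw [trFun_apply, h2]
  rw [h3] at h
  exact h

theorem trFun_surjective : Function.Surjective (trFun p (k := k)) := by
  letI := ZMod.algebra k p
  classical
  have hfin : Finite (Matrix (Fin 2) (Fin 2) k →+ ZMod p) :=
    Finite.of_injective (fun f => (f : Matrix (Fin 2) (Fin 2) k → ZMod p)) DFunLike.coe_injective
  refine (Function.Injective.bijective_of_nat_card_le (trFun_injective p) ?_).2
  have e : (Matrix (Fin 2) (Fin 2) k →+ ZMod p) ≃
      Module.Dual (ZMod p) (Matrix (Fin 2) (Fin 2) k) :=
    (AddMonoidHom.toZModLinearMapEquiv p).toEquiv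
  have hV : Module.Finite (ZMod p) (Matrix (Fin 2) (Fin 2) k) := Module.Finite.of_finite
  rw [Nat.card_congr e, Module.natCard_eq_pow_finrank (K := ZMod p),
    Module.natCard_eq_pow_finrank (K := ZMod p) (V := Matrix (Fin 2) (Fin 2) k),
    Subspace.dual_finrank_eq]

omit [Finite k] in
/-- **the twisted action on functionals is the twisted conjugation on matrices.** -/
theorem trFun_conj (c : ℕ) (R R' Y : Matrix (Fin 2) (Fin 2) k) (X : Matrix (Fin 2) (Fin 2) k) :
    (c : ZMod p) * trFun p Y (R' * X * R) = trFun p ((c : k) • (R * Y * R')) X := by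
  letI := ZMod.algebra k p
  rw [trFun_apply, trFun_apply]
  have h1 : ((c : k) • (R * Y * R') * X).trace = (c : k) * (Y * (R' * X * R)).trace := by
    rw [Matrix.smul_mul, Matrix.trace_smul, smul_eq_mul]
    congr 1
    rw [Matrix.mul_assoc, Matrix.mul_assoc, Matrix.trace_mul_comm R, Matrix.mul_assoc,
      Matrix.mul_assoc]
  rw [h1]
  have h2 : ((c : k) : k) = algebraMap (ZMod p) k (c : ZMod p) := by
    rw [map_natCast]
  rw [h2, ← smul_eq_mul (a := algebraMap (ZMod p) k (c : ZMod p)), algebraMap_smul, map_smul,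
    smul_eq_mul]

omit [Finite k] in
/-- scalar matrices give functionals vanishing on the traceless matrices. -/
theorem trFun_scalar (y : k) (X : Matrix (Fin 2) (Fin 2) k) (hX : X.trace = 0) :
    trFun p (!![y, 0; 0, y]) X = 0 := by
  letI := ZMod.algebra k p
  rw [trFun_apply]
  have : (!![y, 0; 0, y] * X).trace = y * X.trace := by
    have e : (!![y, 0; 0, y] : Matrix (Fin 2) (Fin 2) k) = y • (1 : Matrix (Fin 2) (Fin 2) k) := by
      ext i j; fin_cases i <;> fin_cases j <;> simp
    rw [e, Matrix.smul_mul, Matrix.one_mul, Matrix.trace_smul, smul_eq_mul]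
  rw [this, hX, mul_zero, map_zero]

end TraceRepr

end Fermat.Agent.GP.Flat.SSAsm
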