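/-
GATE-P / S56 [P-FLAT], node S56-FLAT-SSASM (helper50), part (D), the level maps:
**the leading-coefficient map of `GP/Flat/SSChainVec` at a level prime to `p` is a `T`-map.**

Frame of `GP/Flat/SSChainVec` with `N = M₂(k)`, `act = adAct R` (`R : 𝔊 →* M₂(k)`, conjugation), and
the functionals `N →+ ZMod p` written as trace functionals `trFun Y` (`SSAsm/TraceRepr`).
For `h ∈ HLev (v ϖ)` with traceless values,
  `lamAt h : M₂(k) →+ κ`, `Y ↦ lcFun res ϖ h (trFun Y)`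
is a `T`-map (`SSAsm/TCount.IsTMap`) with `b₀ = res (s₀ϖ/ϖ)`, `tφ = res (φϖ/ϖ)` as soon as
`R s₀ = diag (c₀, d₀)` acts trivially on `κ` and `R φ = [[0,1],[x,0]]` acts by Frobenius on `κ`.
-/
import Fermat.Agent.GP.Flat.SSChainVec
import Fermat.Agent.GP.Flat.SSAsm.TCount
import Fermat.Agent.GP.Flat.SSAsm.TraceRepr

set_option autoImplicit false
set_option linter.unusedSectionVars false

open Matrix
open Fermat.Agent.GP.Ram.KummerBreak Fermat.Agent.GP.Ram.UnitFilt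
  Fermat.Agent.GP.Ram.UnitFiltTop Fermat.Agent.GP.Flat.SSKummer Fermat.Agent.GP.Flat.SSChain
  Fermat.Agent.GP.Flat.SSChainVec

namespace Fermat.Agent.GP.Flat.SSAsm

section AdAct

variable {𝔊 : Type*} [Group 𝔊] {k : Type*} [Field k]

/-- the adjoint action `X ↦ R δ X R δ⁻¹` on `M₂(k)`. -/
def adAct (R : 𝔊 →* Matrix (Fin 2) (Fin 2) k) (δ : 𝔊) :
    Matrix (Fin 2) (Fin 2) k →+ Matrix (Fin 2) (Fin 2) k :=
  (AddMonoidHom.mulRight (R δ⁻¹)).comp (AddMonoidHom.mulLeft (R δ))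

theorem adAct_apply (R : 𝔊 →* Matrix (Fin 2) (Fin 2) k) (δ : 𝔊) (X : Matrix (Fin 2) (Fin 2) k) :
    adAct R δ X = R δ * X * R δ⁻¹ := rfl

/-- the twisted action of `SSChainVec` on trace functionals. -/
theorem tw_trFun (p : ℕ) [Fact p.Prime] [CharP k p] (R : 𝔊 →* Matrix (Fin 2) (Fin 2) k) (c : ℕ)
    (δ : 𝔊) (Y : Matrix (Fin 2) (Fin 2) k) :
    tw (adAct R) c δ (trFun p Y) = trFun p ((c : k) • (R δ * Y * R δ⁻¹)) := by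
  ext X
  rw [tw_apply, adAct_apply, inv_inv]
  exact trFun_conj p c (R δ) (R δ⁻¹) Y X

/-- the value of `R` at an inverse from an explicit right inverse. -/
theorem map_inv_eq_of_mul_eq_one (R : 𝔊 →* Matrix (Fin 2) (Fin 2) k) {δ : 𝔊}
    {A B : Matrix (Fin 2) (Fin 2) k} (hA : R δ = A) (hAB : A * B = 1) : R δ⁻¹ = B := by
  have h1 : R δ⁻¹ * A = 1 := by rw [← hA, ← map_mul, inv_mul_cancel, map_one]
  calc R δ⁻¹ = R δ⁻¹ * (A * B) := by rw [hAB, mul_one]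
    _ = B := by rw [← mul_assoc, h1, one_mul]

theorem diag_mul_inv_fin_two {c₀ d₀ : k} (hc₀ : c₀ ≠ 0) (hd₀ : d₀ ≠ 0) :
    (!![c₀, 0; 0, d₀] : Matrix (Fin 2) (Fin 2) k) * !![c₀⁻¹, 0; 0, d₀⁻¹] = 1 := by
  ext i j; fin_cases i <;> fin_cases j <;> simp [hc₀, hd₀]

theorem anti_mul_inv_fin_two {x : k} (hx : x ≠ 0) :
    (!![0, 1; x, 0] : Matrix (Fin 2) (Fin 2) k) * !![0, x⁻¹; 1, 0] = 1 := by
  ext i j; fin_cases i <;> fin_cases j <;> simp [hx]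

end AdAct

section Level

variable {Ω : Type*} [Field Ω] {Γ₀ : Type*} [LinearOrderedCommGroupWithZero Γ₀]
  (v : Valuation Ω Γ₀) {p : ℕ} [hp : Fact p.Prime]
  {𝔊 : Type*} [Group 𝔊] [MulSemiringAction 𝔊 Ω] {Dd GK : Subgroup 𝔊} {K : Subfield Ω} {ζ : Ω}
  {k : Type*} [Field k] [CharP k p] (R : 𝔊 →* Matrix (Fin 2) (Fin 2) k)
  {κ : Type*} [Field κ] (res : Ω → κ)

/-- the zero character has leading coefficient `0` at every level. -/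
theorem lc_zero_char {ϖ : Ω} (hϖ0 : ϖ ≠ 0) :
    LC v GK K ζ ϖ (fun _ => (0 : ZMod p)) 0 := by
  refine ⟨1, 1, ⟨one_ne_zero, fun g _ => ?_⟩, K.one_mem, one_ne_zero, ?_, ?_⟩
  · rw [smul_one, zpw_zero, one_mul]
  · simp
  · simp

variable (hK : ∀ x, x ∈ K ↔ ∀ g ∈ GK, g • x = x) (hζ : IsPrimitiveRoot ζ p) (hζK : ζ ∈ K)
  (horb : ∀ x : Ω, (Set.range fun g : GK => g • x).Finite)
  {ϖ : Ω} (hϖK : ϖ ∈ K) (hϖ0 : ϖ ≠ 0) (hϖ1 : v ϖ < 1)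
  (hres : IsRes v K res)
  (U : ∀ (χ : 𝔊 → ZMod p) (a a' : Ω), LC v GK K ζ ϖ χ a → LC v GK K ζ ϖ χ a' → v (a - a') < 1)

include hK hζ hζK horb hϖK hϖ0 hϖ1 hres U

/-- the level map as an additive map `M₂(k) →+ κ`. -/
noncomputable def lamAt {h : 𝔊 → Matrix (Fin 2) (Fin 2) k}
    (hh : h ∈ HLev (p := p) v Dd GK K ζ (adAct R) (v ϖ)) : Matrix (Fin 2) (Fin 2) k →+ κ :=
  AddMonoidHom.mk' (fun Y => lcFun v GK K ζ res ϖ h (trFun p Y)) (fun Y Y' => by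
    show lcFun v GK K ζ res ϖ h (trFun p (Y + Y')) = _
    rw [trFun_add]
    exact lcFun_add_fun v hK hζ hζK horb res hϖK hϖ0 hϖ1 hres U hh _ _)

theorem lamAt_apply {h : 𝔊 → Matrix (Fin 2) (Fin 2) k}
    (hh : h ∈ HLev (p := p) v Dd GK K ζ (adAct R) (v ϖ)) (Y : Matrix (Fin 2) (Fin 2) k) :
    lamAt v R res hK hζ hζK horb hϖK hϖ0 hϖ1 hres U hh Y =
      lcFun v GK K ζ res ϖ h (trFun p Y) := rfl

/-- the scalar relation. -/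
theorem lamAt_scalar {h : 𝔊 → Matrix (Fin 2) (Fin 2) k}
    (hh : h ∈ HLev (p := p) v Dd GK K ζ (adAct R) (v ϖ)) (htr : ∀ g, (h g).trace = 0) (y : k) :
    lamAt v R res hK hζ hζK horb hϖK hϖ0 hϖ1 hres U hh !![y, 0; 0, y] = 0 := by
  rw [lamAt_apply]
  have h0 : LC v GK K ζ ϖ (chi (trFun p !![y, 0; 0, y]) h) 0 := by
    refine LC.congr v (fun g _ => ?_) (lc_zero_char (p := p) v hϖ0)
    show (0 : ZMod p) = trFun p !![y, 0; 0, y] (h g)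
    rw [trFun_scalar p y (h g) (htr g)]
  rw [lcFun_eq_of_lc v hK hζ hζK horb res hϖK hϖ0 hϖ1 hres U K.zero_mem h0]
  exact hres.zero v

/-- the twisted equivariance in matrix form. -/
theorem lamAt_tw {h : 𝔊 → Matrix (Fin 2) (Fin 2) k}
    (hh : h ∈ HLev (p := p) v Dd GK K ζ (adAct R) (v ϖ)) (δ : 𝔊)
    (hδD : δ ∈ Dd) (hisoδ : ∀ x : Ω, v (δ • x) = v x) (hδG : ∀ g ∈ GK, δ⁻¹ * g * δ ∈ GK)
    {c : ℕ} (hδζ : δ • ζ = ζ ^ c) (actκ : κ → κ)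
    (hresδ : ∀ x ∈ K, v x ≤ 1 → res (δ • x) = actκ (res x)) (Y : Matrix (Fin 2) (Fin 2) k) :
    lamAt v R res hK hζ hζK horb hϖK hϖ0 hϖ1 hres U hh ((c : k) • (R δ * Y * R δ⁻¹)) =
      actκ (lamAt v R res hK hζ hζK horb hϖK hϖ0 hϖ1 hres U hh Y) * res (δ • ϖ / ϖ) := by
  rw [lamAt_apply, lamAt_apply, ← tw_trFun]
  exact lcFun_tw v hK hζ hζK horb res hϖK hϖ0 hϖ1 hres U hh δ hδD hisoδ hδG hδζ actκ hresδ _

/-- **the level map is a `T`-map.** -/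
theorem isTMap_lamAt {h : 𝔊 → Matrix (Fin 2) (Fin 2) k}
    (hh : h ∈ HLev (p := p) v Dd GK K ζ (adAct R) (v ϖ)) (htr : ∀ g, (h g).trace = 0)
    {s₀ φ : 𝔊} (hs₀D : s₀ ∈ Dd) (hφD : φ ∈ Dd)
    (hiso₀ : ∀ x : Ω, v (s₀ • x) = v x) (hisoφ : ∀ x : Ω, v (φ • x) = v x)
    (hG₀ : ∀ g ∈ GK, s₀⁻¹ * g * s₀ ∈ GK) (hGφ : ∀ g ∈ GK, φ⁻¹ * g * φ ∈ GK)
    {w₀ wφ : ℕ} (hζ₀ : s₀ • ζ = ζ ^ w₀) (hζφ : φ • ζ = ζ ^ wφ)
    (hres₀ : ∀ x ∈ K, v x ≤ 1 → res (s₀ • x) = res x)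
    (hresφ : ∀ x ∈ K, v x ≤ 1 → res (φ • x) = res x ^ p)
    {c₀ d₀ x : k} (hc₀ : c₀ ≠ 0) (hd₀ : d₀ ≠ 0) (hx : x ≠ 0)
    (hR₀ : R s₀ = !![c₀, 0; 0, d₀]) (hRφ : R φ = !![0, 1; x, 0]) :
    IsTMap p c₀ d₀ w₀ (res (s₀ • ϖ / ϖ)) x wφ (res (φ • ϖ / ϖ))
      (lamAt v R res hK hζ hζK horb hϖK hϖ0 hϖ1 hres U hh) := by
  refine ⟨lamAt_scalar v R res hK hζ hζK horb hϖK hϖ0 hϖ1 hres U hh htr, fun Y => ?_, fun Y => ?_⟩
  · have := lamAt_tw v R res hK hζ hζK horb hϖK hϖ0 hϖ1 hres U hh s₀ hs₀D hiso₀ hG₀ hζ₀ id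
      hres₀ Y
    rw [hR₀, map_inv_eq_of_mul_eq_one R hR₀ (diag_mul_inv_fin_two hc₀ hd₀)] at this
    rw [this, id, mul_comm]
  · have := lamAt_tw v R res hK hζ hζK horb hϖK hϖ0 hϖ1 hres U hh φ hφD hisoφ hGφ hζφ
      (fun z => z ^ p) hresφ Y
    rw [hRφ, map_inv_eq_of_mul_eq_one R hRφ (anti_mul_inv_fin_two hx)] at this
    rw [this, mul_comm]

end Level

end Fermat.Agent.GP.Flat.SSAsm
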