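/-
GATE-P / S56 [P-FLAT], node S56-FLAT-SSASM (helper50), part (D), top level:
**the graded piece at the top level `e' = p e/(p-1)` vanishes.**

At the top level the leading coefficients live in `Q = κ/℘κ` (an `𝔽_p`-space on which Frobenius is
trivial and the decomposition group acts through the cyclotomic character).  Abstractly: `Q` an
additive group killed by `p`, `L : M₂(k) →+ Q` with
* `L (y • 1) = 0`,
* `L (w₀ • (R₀ Y R₀⁻¹)) = w₀ • L Y`   (`R₀ = diag (c₀, d₀)`, `c₀ ≠ d₀`, `p ∤ w₀`),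
* `L (wφ • (Rφ Y Rφ⁻¹)) = wφ • L Y`   (`Rφ = [[0,1],[x,0]]`, `p ∤ wφ`),
then `L = 0` (`p` odd).  Mathlib only.
-/
import Fermat.Agent.GP.Flat.SSAsm.TCount

set_option autoImplicit false

open Matrix

namespace Fermat.Agent.GP.Flat.SSAsm

section TopVanish

variable {k : Type*} [Field k] {Q : Type*} [AddCommGroup Q] {p : ℕ} [Fact p.Prime]

/-- in a group killed by `p`, multiplication by an integer prime to `p` is injective. -/
theorem eq_zero_of_nsmul_eq_zero_of_not_dvd (hQ : ∀ z : Q, p • z = 0) {w : ℕ} (hw : ¬ p ∣ w)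
    {z : Q} (h : w • z = 0) : z = 0 := by
  have hp : p.Prime := Fact.out
  have hcop : Nat.Coprime w p := (Nat.Prime.coprime_iff_not_dvd hp).2 hw |>.symm
  obtain ⟨a, b, hab⟩ : ∃ a b : ℤ, (w : ℤ) * a + (p : ℤ) * b = 1 := by
    have := Nat.Coprime.isCoprime hcop
    obtain ⟨a, b, h⟩ := this
    exact ⟨a, b, by linarith⟩
  have h1 : ((w : ℤ) * a + (p : ℤ) * b) • z = z := by rw [hab, one_smul]
  rw [add_smul, mul_comm (w : ℤ), mul_smul, mul_comm (p : ℤ), mul_smul, natCast_zsmul,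
    natCast_zsmul, h, hQ, smul_zero, smul_zero, add_zero] at h1
  exact h1.symm

variable {c₀ d₀ x : k} {w₀ wφ : ℕ} {L : Matrix (Fin 2) (Fin 2) k →+ Q}

/-- **top-level vanishing.** -/
theorem top_vanish (hp2 : p ≠ 2) (hQ : ∀ z : Q, p • z = 0) [CharP k p]
    (hc₀ : c₀ ≠ 0) (hd₀ : d₀ ≠ 0) (hcd : c₀ ≠ d₀) (hx : x ≠ 0)
    (hw₀ : ¬ p ∣ w₀) (hwφ : ¬ p ∣ wφ)
    (hscalar : ∀ y : k, L !![y, 0; 0, y] = 0)
    (hinertia : ∀ Y : Matrix (Fin 2) (Fin 2) k,
      L ((w₀ : k) • (!![c₀, 0; 0, d₀] * Y * !![c₀⁻¹, 0; 0, d₀⁻¹])) = w₀ • L Y)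
    (hfrob : ∀ Y : Matrix (Fin 2) (Fin 2) k,
      L ((wφ : k) • (!![0, 1; x, 0] * Y * !![0, x⁻¹; 1, 0])) = wφ • L Y) : L = 0 := by
  have hp : p.Prime := Fact.out
  -- natural-number scalars come out
  have hnat : ∀ (w : ℕ) (Z : Matrix (Fin 2) (Fin 2) k), L ((w : k) • Z) = w • L Z := by
    intro w Z
    rw [← map_nsmul]
    congr 1
    rw [Nat.cast_smul_eq_nsmul]
  have hin : ∀ Y, L (!![c₀, 0; 0, d₀] * Y * !![c₀⁻¹, 0; 0, d₀⁻¹]) = L Y := by
    intro Y
    have h := hinertia Y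
    rw [hnat, ← sub_eq_zero, ← smul_sub] at h
    exact sub_eq_zero.1 (eq_zero_of_nsmul_eq_zero_of_not_dvd hQ hw₀ h)
  have hfr : ∀ Y, L (!![0, 1; x, 0] * Y * !![0, x⁻¹; 1, 0]) = L Y := by
    intro Y
    have h := hfrob Y
    rw [hnat, ← sub_eq_zero, ← smul_sub] at h
    exact sub_eq_zero.1 (eq_zero_of_nsmul_eq_zero_of_not_dvd hQ hwφ h)
  -- off-diagonal entries
  have h12 : ∀ y : k, L !![0, y; 0, 0] = 0 := by
    intro y
    have hne : c₀ * d₀⁻¹ - 1 ≠ 0 := by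
      intro h
      apply hcd
      have : c₀ * d₀⁻¹ = 1 := sub_eq_zero.1 h
      field_simp at this
      exact this
    have key : ∀ z : k, L !![0, (c₀ * d₀⁻¹ - 1) * z; 0, 0] = 0 := by
      intro z
      have h := hin !![0, z; 0, 0]
      rw [diag_conj_fin_two] at h
      simp only [mul_zero, zero_mul] at h
      have e : (!![0, (c₀ * d₀⁻¹ - 1) * z; 0, 0] : Matrix (Fin 2) (Fin 2) k) =
          !![0, c₀ * z * d₀⁻¹; 0, 0] - !![0, z; 0, 0] := by
        ext i j; fin_cases i <;> fin_cases j <;> simp <;> ring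
      rw [e, map_sub, h, sub_self]
    have := key ((c₀ * d₀⁻¹ - 1)⁻¹ * y)
    rwa [← mul_assoc, mul_inv_cancel₀ hne, one_mul] at this
  have h21 : ∀ y : k, L !![0, 0; y, 0] = 0 := by
    intro y
    have hne : d₀ * c₀⁻¹ - 1 ≠ 0 := by
      intro h
      apply hcd
      have : d₀ * c₀⁻¹ = 1 := sub_eq_zero.1 h
      field_simp at this
      exact this.symm
    have key : ∀ z : k, L !![0, 0; (d₀ * c₀⁻¹ - 1) * z, 0] = 0 := by
      intro z
      have h := hin !![0, 0; z, 0]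
      rw [diag_conj_fin_two] at h
      simp only [mul_zero, zero_mul] at h
      have e : (!![0, 0; (d₀ * c₀⁻¹ - 1) * z, 0] : Matrix (Fin 2) (Fin 2) k) =
          !![0, 0; d₀ * z * c₀⁻¹, 0] - !![0, 0; z, 0] := by
        ext i j; fin_cases i <;> fin_cases j <;> simp <;> ring
      rw [e, map_sub, h, sub_self]
    have := key ((d₀ * c₀⁻¹ - 1)⁻¹ * y)
    rwa [← mul_assoc, mul_inv_cancel₀ hne, one_mul] at this
  -- diagonal entries
  have h1122 : ∀ y : k, L !![0, 0; 0, y] = L !![y, 0; 0, 0] := by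
    intro y
    have h := hfr !![y, 0; 0, 0]
    rw [anti_conj_fin_two] at h
    simp only [mul_zero, zero_mul] at h
    have e : x * y * x⁻¹ = y := by field_simp
    rw [e] at h
    exact h
  have h11 : ∀ y : k, L !![y, 0; 0, 0] = 0 := by
    intro y
    have hs := hscalar y
    have e : (!![y, 0; 0, y] : Matrix (Fin 2) (Fin 2) k) = !![y, 0; 0, 0] + !![0, 0; 0, y] := by
      ext i j; fin_cases i <;> fin_cases j <;> simp
    rw [e, map_add, h1122, ← two_nsmul] at hs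
    refine eq_zero_of_nsmul_eq_zero_of_not_dvd hQ ?_ hs
    intro hdvd
    exact hp2 ((Nat.prime_dvd_prime_iff_eq hp Nat.prime_two).1 hdvd)
  ext Y
  have e : Y = !![Y 0 0, 0; 0, 0] + !![0, Y 0 1; 0, 0] + !![0, 0; Y 1 0, 0] + !![0, 0; 0, Y 1 1] := by
    ext i j; fin_cases i <;> fin_cases j <;> simp
  rw [e, map_add, map_add, map_add, h11, h12, h21, h1122, h11]
  simp

end TopVanish

end Fermat.Agent.GP.Flat.SSAsm
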