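/-
GATE-P / S56 [P-FLAT], node S56-FLAT-SSASM (helper50), part (D), the top level:
**a traceless admissible `h` of level `≥ v (ζ - 1) ^ p` (the top level `p e/(p-1)`) is zero.**

At the top level the leading coefficients of `GP/Flat/SSChainVec` are defined modulo
`℘ κ = {z ^ p - z}`; the class map `Y ↦ [lcFun h (trFun Y)] ∈ κ ⧸ ℘ κ` is additive and satisfies the
relations of `SSAsm/TopVanish.top_vanish`, hence vanishes; `top_fibre` and `eq_zero_of_slev_top`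
then give `h = 0`.
-/
import Fermat.Agent.GP.Flat.SSAsm.LevelMap
import Fermat.Agent.GP.Flat.SSAsm.TopVanish

set_option autoImplicit false
set_option linter.unusedSectionVars false

open Matrix
open Fermat.Agent.GP.Ram.KummerBreak Fermat.Agent.GP.Ram.UnitFilt
  Fermat.Agent.GP.Ram.UnitFiltTop Fermat.Agent.GP.Flat.SSKummer Fermat.Agent.GP.Flat.SSChain
  Fermat.Agent.GP.Flat.SSChainVec

namespace Fermat.Agent.GP.Flat.SSAsm

section AS

variable (κ : Type*) [Field κ] (p : ℕ) [Fact p.Prime] [CharP κ p]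

/-- the Artin–Schreier map `z ↦ z ^ p - z`. -/
def asHom : κ →+ κ := (frobenius κ p : κ →+* κ).toAddMonoidHom - AddMonoidHom.id κ

theorem asHom_apply (z : κ) : asHom κ p z = z ^ p - z := rfl

/-- `℘ κ`. -/
def asRange : AddSubgroup κ := (asHom κ p).range

variable {κ p}

theorem mem_asRange {a : κ} : a ∈ asRange κ p ↔ ∃ z : κ, z ^ p - z = a := by
  unfold asRange
  rw [AddMonoidHom.mem_range]
  rfl

theorem mem_asRange_of_eq {a z : κ} (h : a = z ^ p - z) : a ∈ asRange κ p :=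
  mem_asRange.2 ⟨z, h.symm⟩

/-- `κ ⧸ ℘ κ` is killed by `p`. -/
theorem nsmul_asQuot (z : κ ⧸ asRange κ p) : p • z = 0 := by
  induction z using QuotientAddGroup.induction_on with
  | H a =>
    rw [← QuotientAddGroup.mk_nsmul]
    have : p • a = 0 := by
      rw [nsmul_eq_mul, CharP.cast_eq_zero, zero_mul]
    rw [this, QuotientAddGroup.mk_zero]

/-- Frobenius is trivial on `κ ⧸ ℘ κ`. -/
theorem mk_pow_asQuot (a : κ) :
    (QuotientAddGroup.mk (a ^ p) : κ ⧸ asRange κ p) = QuotientAddGroup.mk a := by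
  rw [QuotientAddGroup.eq_iff_sub_mem]
  exact mem_asRange.2 ⟨a, rfl⟩

theorem mk_mul_natCast_asQuot (a : κ) (c : ℕ) :
    (QuotientAddGroup.mk (a * (c : κ)) : κ ⧸ asRange κ p) = c • QuotientAddGroup.mk a := by
  rw [← QuotientAddGroup.mk_nsmul, nsmul_eq_mul, mul_comm]

end AS

section Top

variable {Ω : Type*} [Field Ω] {Γ₀ : Type*} [LinearOrderedCommGroupWithZero Γ₀]
  (v : Valuation Ω Γ₀) {p : ℕ} [hp : Fact p.Prime]
  {𝔊 : Type*} [Group 𝔊] [MulSemiringAction 𝔊 Ω] {Dd GK : Subgroup 𝔊} {K : Subfield Ω} {ζ : Ω}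
  {k : Type*} [Field k] [CharP k p] [Finite k] (R : 𝔊 →* Matrix (Fin 2) (Fin 2) k)
  {κ : Type*} [Field κ] [CharP κ p] (res : Ω → κ)

variable (hK : ∀ x, x ∈ K ↔ ∀ g ∈ GK, g • x = x) (hζ : IsPrimitiveRoot ζ p) (hζK : ζ ∈ K)
  (horb : ∀ x : Ω, (Set.range fun g : GK => g • x).Finite)
  (hres : IsRes v K res) (hlam : v (ζ - 1) < 1)

include hK hζ hζK horb hres hlam

/-- at the top level the zero character has leading coefficient in `℘ κ`. -/
theorem lcFun_top_mem_of_zero_char {h : 𝔊 → Matrix (Fin 2) (Fin 2) k}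
    (hh : h ∈ HLev (p := p) v Dd GK K ζ (adAct R) (v (ζ - 1) ^ p))
    (ℓ : Matrix (Fin 2) (Fin 2) k →+ ZMod p) (hℓ : ∀ g ∈ GK, chi ℓ h g = 0) :
    lcFun v GK K ζ res ((ζ - 1) ^ p) h ℓ ∈ asRange κ p := by
  have hl0 : (ζ - 1) ^ p ≠ 0 := pow_ne_zero _ (lam_ne_zero hζ)
  have hlK : (ζ - 1) ^ p ∈ K := K.pow_mem (K.sub_mem hζK K.one_mem) p
  have hl1 : v ((ζ - 1) ^ p) < 1 := by rw [v.map_pow]; exact val_lam_pow_lt_one (p := p) v hlam
  have hh' := top_mem v hK hζ hζK horb res hres hlam hh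
  obtain ⟨a, haK, ha, hae⟩ := lcFun_spec v hK hζ hζK horb res hlK hl0 hl1 hh' ℓ
  have ha0 : LC v GK K ζ ((ζ - 1) ^ p) (fun _ => (0 : ZMod p)) a :=
    LC.congr v (fun g hg => hℓ g hg) ha
  obtain ⟨x, hxK, hx1, hx⟩ := lc_top_unique v hK hζ hζK hlam
    (lc_zero_char (p := p) (GK := GK) (K := K) (ζ := ζ) v hl0) ha0
  rw [sub_zero] at hx
  have hva := LC.val_le_one v hl0 ha
  have hxp : v (x ^ p - x) ≤ 1 :=
    v.map_sub_le (by rw [v.map_pow]; exact pow_le_one₀ zero_le hx1) hx1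
  have := (hres.eq_iff v haK (K.sub_mem (K.pow_mem hxK p) hxK) hva hxp).mpr hx
  rw [hres.artinSchreier v hxK hx1] at this
  rw [hae, this]
  exact mem_asRange.2 ⟨res x, rfl⟩

/-- the class map at the top level. -/
noncomputable def topL {h : 𝔊 → Matrix (Fin 2) (Fin 2) k}
    (hh : h ∈ HLev (p := p) v Dd GK K ζ (adAct R) (v (ζ - 1) ^ p)) :
    Matrix (Fin 2) (Fin 2) k →+ κ ⧸ asRange κ p :=
  AddMonoidHom.mk'
    (fun Y => QuotientAddGroup.mk (lcFun v GK K ζ res ((ζ - 1) ^ p) h (trFun p Y)))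
    (fun Y Y' => by
      show (QuotientAddGroup.mk (lcFun v GK K ζ res ((ζ - 1) ^ p) h (trFun p (Y + Y'))) :
        κ ⧸ asRange κ p) = _
      rw [trFun_add, ← QuotientAddGroup.mk_add, QuotientAddGroup.eq_iff_sub_mem]
      obtain ⟨z, hz⟩ := top_add_fun v hK hζ hζK horb res hres hlam hh (trFun p Y) (trFun p Y')
      exact mem_asRange.2 ⟨z, hz.symm⟩)

theorem topL_apply {h : 𝔊 → Matrix (Fin 2) (Fin 2) k}
    (hh : h ∈ HLev (p := p) v Dd GK K ζ (adAct R) (v (ζ - 1) ^ p))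
    (Y : Matrix (Fin 2) (Fin 2) k) :
    topL v R res hK hζ hζK horb hres hlam hh Y =
      QuotientAddGroup.mk (lcFun v GK K ζ res ((ζ - 1) ^ p) h (trFun p Y)) := rfl

/-- **the top level is trivial.** -/
theorem top_eq_zero (hp2 : p ≠ 2)
    (hsurj : ∀ z : κ, ∃ x ∈ K, v x ≤ 1 ∧ res x = z)
    (hisoG : ∀ g ∈ GK, ∀ x : Ω, v (g • x) = v x)
    {h : 𝔊 → Matrix (Fin 2) (Fin 2) k}
    (hh : h ∈ HLev (p := p) v Dd GK K ζ (adAct R) (v (ζ - 1) ^ p)) (htr : ∀ g, (h g).trace = 0)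
    {s₀ φ : 𝔊} (hs₀D : s₀ ∈ Dd) (hφD : φ ∈ Dd)
    (hiso₀ : ∀ x : Ω, v (s₀ • x) = v x) (hisoφ : ∀ x : Ω, v (φ • x) = v x)
    (hG₀ : ∀ g ∈ GK, s₀⁻¹ * g * s₀ ∈ GK) (hGφ : ∀ g ∈ GK, φ⁻¹ * g * φ ∈ GK)
    {w₀ wφ : ℕ} (hζ₀ : s₀ • ζ = ζ ^ w₀) (hζφ : φ • ζ = ζ ^ wφ)
    (hw₀ : ¬ p ∣ w₀) (hwφ : ¬ p ∣ wφ)
    (hres₀ : ∀ x ∈ K, v x ≤ 1 → res (s₀ • x) = res x)
    (hresφ : ∀ x ∈ K, v x ≤ 1 → res (φ • x) = res x ^ p)
    {c₀ d₀ x : k} (hc₀ : c₀ ≠ 0) (hd₀ : d₀ ≠ 0) (hcd : c₀ ≠ d₀) (hx : x ≠ 0)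
    (hR₀ : R s₀ = !![c₀, 0; 0, d₀]) (hRφ : R φ = !![0, 1; x, 0]) : h = 0 := by
  have hγ : v (ζ - 1) ^ p < 1 := val_lam_pow_lt_one (p := p) v hlam
  -- the class map vanishes
  have hL : topL v R res hK hζ hζK horb hres hlam hh = 0 := by
    refine top_vanish (p := p) (c₀ := c₀) (d₀ := d₀) (x := x) (w₀ := w₀) (wφ := wφ) hp2
      nsmul_asQuot hc₀ hd₀ hcd hx hw₀ hwφ (fun y => ?_) (fun Y => ?_) (fun Y => ?_)
    · rw [topL_apply, ← QuotientAddGroup.mk_zero, QuotientAddGroup.eq_iff_sub_mem, sub_zero]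
      refine lcFun_top_mem_of_zero_char v R res hK hζ hζK horb hres hlam hh _ (fun g _ => ?_)
      show trFun p !![y, 0; 0, y] (h g) = 0
      exact trFun_scalar p y (h g) (htr g)
    · obtain ⟨z, hz⟩ := top_tw v hK hζ hζK horb res hres hlam hh s₀ hs₀D hiso₀ hG₀ hζ₀ id
        hres₀ (trFun p Y)
      rw [tw_trFun, hR₀, map_inv_eq_of_mul_eq_one R hR₀ (diag_mul_inv_fin_two hc₀ hd₀)] at hz
      rw [topL_apply, topL_apply, ← mk_mul_natCast_asQuot, QuotientAddGroup.eq_iff_sub_mem]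
      exact mem_asRange.2 ⟨z, hz.symm⟩
    · obtain ⟨z, hz⟩ := top_tw v hK hζ hζK horb res hres hlam hh φ hφD hisoφ hGφ hζφ
        (fun z => z ^ p) hresφ (trFun p Y)
      rw [tw_trFun, hRφ, map_inv_eq_of_mul_eq_one R hRφ (anti_mul_inv_fin_two hx)] at hz
      have e : wφ • (QuotientAddGroup.mk (lcFun v GK K ζ res ((ζ - 1) ^ p) h (trFun p Y)) :
          κ ⧸ asRange κ p) =
          QuotientAddGroup.mk (lcFun v GK K ζ res ((ζ - 1) ^ p) h (trFun p Y) ^ p * (wφ : κ)) := by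
        rw [mk_mul_natCast_asQuot, mk_pow_asQuot]
      rw [topL_apply, topL_apply, e, QuotientAddGroup.eq_iff_sub_mem]
      exact mem_asRange.2 ⟨z, hz.symm⟩
  -- every leading coefficient lies in `℘ κ`
  have hmem : ∀ ℓ : Matrix (Fin 2) (Fin 2) k →+ ZMod p,
      lcFun v GK K ζ res ((ζ - 1) ^ p) h ℓ ∈ asRange κ p := by
    intro ℓ
    obtain ⟨Y, rfl⟩ := trFun_surjective p (k := k) ℓ
    have := DFunLike.congr_fun hL Y
    rw [topL_apply, AddMonoidHom.zero_apply, ← QuotientAddGroup.mk_zero,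
      QuotientAddGroup.eq_iff_sub_mem, sub_zero] at this
    exact this
  have h0 : (0 : 𝔊 → Matrix (Fin 2) (Fin 2) k) ∈
      HLev (p := p) v Dd GK K ζ (adAct R) (v (ζ - 1) ^ p) :=
    (hSub v hK hζ hζK horb (Dd := Dd) (act := adAct R) hγ).zero_mem
  have hs : ∀ ℓ : Matrix (Fin 2) (Fin 2) k →+ ZMod p,
      SLev v GK K ζ (v (ζ - 1) ^ p) (chi ℓ (-(0 : 𝔊 → Matrix (Fin 2) (Fin 2) k) + h)) := by
    refine top_fibre v hK hζ hζK horb res hres hlam hsurj hh h0 (fun ℓ => ?_)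
    have h1 := hmem ℓ
    have h2 : lcFun v GK K ζ res ((ζ - 1) ^ p) (0 : 𝔊 → Matrix (Fin 2) (Fin 2) k) ℓ ∈
        asRange κ p :=
      lcFun_top_mem_of_zero_char v R res hK hζ hζK horb hres hlam h0 ℓ (fun g _ => by
        show ℓ ((0 : 𝔊 → Matrix (Fin 2) (Fin 2) k) g) = 0
        rw [Pi.zero_apply, map_zero])
    obtain ⟨z, hz⟩ := mem_asRange.1 ((asRange κ p).sub_mem h1 h2)
    exact ⟨z, hz.symm⟩
  rw [neg_zero, zero_add] at hs
  refine eq_zero_of_slev_top v hK hζ hζK horb hlam hisoG (fun n hn => ?_) hh.1 hs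
  -- the trace form is nondegenerate
  have hsym : ∀ Y : Matrix (Fin 2) (Fin 2) k, trFun p n Y = trFun p Y n := by
    intro Y
    rw [trFun_apply, trFun_apply, Matrix.trace_mul_comm]
  have : trFun p n = trFun p (0 : Matrix (Fin 2) (Fin 2) k) := by
    ext Y
    rw [hsym, hn, trFun_zero, AddMonoidHom.zero_apply]
  exact trFun_injective p this

end Top

end Fermat.Agent.GP.Flat.SSAsm
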