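/-
GATE-P / S56 [P-FLAT], node S56-FLAT-SSASM (helper50), part (D), the count:
**the traceless admissible maps of level `≥ v p` are at most `#k`** (supersingular flat local
condition, abstract frame of `GP/Flat/SSChainVec`).

Chain: `H r = {h ∈ HLev (v π^(e+r)) | traceless}`, `r = 0, …, m` (`e = m (p-1)` the ramification
index, `v (ζ-1) = v π^m`, top level `e + m = p m`); `H m = 0` (`SSAsm/TopLevel.top_eq_zero`);
at a level prime to `p` the step is controlled by the `T`-maps (`SSAsm/LevelMap.isTMap_lamAt`), at a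
level divisible by `p` the step is trivial (`SSChainVec.slev_of_pdiv_vec`).  The bounds on the
`T`-maps enter as the hypotheses `hTz`, `hTc` (discharged in `SSAsm/TLevelGen`).
-/
import Fermat.Agent.GP.Flat.SSAsm.ChainCard
import Fermat.Agent.GP.Flat.SSAsm.TopLevel

set_option autoImplicit false
set_option linter.unusedSectionVars false
set_option linter.style.haveILetI false

open Matrix
open Fermat.Agent.GP.Ram.KummerBreak Fermat.Agent.GP.Ram.UnitFilt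
  Fermat.Agent.GP.Ram.UnitFiltTop Fermat.Agent.GP.Flat.SSKummer Fermat.Agent.GP.Flat.SSChain
  Fermat.Agent.GP.Flat.SSChainVec

namespace Fermat.Agent.GP.Flat.SSAsm

/-- the traceless maps. -/
def tr0Sub (𝔊 k : Type*) [Field k] : AddSubgroup (𝔊 → Matrix (Fin 2) (Fin 2) k) where
  carrier := {h | ∀ g, (h g).trace = 0}
  zero_mem' := fun g => by simp
  add_mem' := fun {a b} ha hb g => by
    rw [Pi.add_apply, Matrix.trace_add, ha g, hb g, add_zero]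
  neg_mem' := fun {a} ha g => by
    rw [Pi.neg_apply, Matrix.trace_neg, ha g, neg_zero]

theorem mem_tr0Sub {𝔊 k : Type*} [Field k] (h : 𝔊 → Matrix (Fin 2) (Fin 2) k) :
    h ∈ tr0Sub 𝔊 k ↔ ∀ g, (h g).trace = 0 := Iff.rfl

section Count

variable {Ω : Type*} [Field Ω] {Γ₀ : Type*} [LinearOrderedCommGroupWithZero Γ₀]
  (v : Valuation Ω Γ₀) {p : ℕ} [hp : Fact p.Prime]
  {𝔊 : Type*} [Group 𝔊] [MulSemiringAction 𝔊 Ω] {Dd GK : Subgroup 𝔊} {K : Subfield Ω} {ζ : Ω}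
  {k : Type*} [Field k] [CharP k p] [Finite k] (R : 𝔊 →* Matrix (Fin 2) (Fin 2) k)
  {κ : Type*} [Field κ] [CharP κ p] [Finite κ] (res : Ω → κ)

variable (hK : ∀ x, x ∈ K ↔ ∀ g ∈ GK, g • x = x) (hζ : IsPrimitiveRoot ζ p) (hζK : ζ ∈ K)
  (horb : ∀ x : Ω, (Set.range fun g : GK => g • x).Finite)
  (hres : IsRes v K res)

include hK hζ hζK horb hres

/-- `res (δ π^i / π^i) = res (δ π / π)^i`. -/
theorem res_smul_pow_div {π : Ω} (hπK : π ∈ K) (hπ0 : π ≠ 0) {δ : 𝔊}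
    (hisoδ : ∀ x : Ω, v (δ • x) = v x) (hδG : ∀ g ∈ GK, δ⁻¹ * g * δ ∈ GK) (i : ℕ) :
    res (δ • π ^ i / π ^ i) = res (δ • π / π) ^ i := by
  have hK' : δ • π / π ∈ K := K.div_mem (smul_mem_K hK hζ hζK horb δ hδG hπK) hπK
  have h1 : v (δ • π / π) ≤ 1 := by
    rw [map_div₀, hisoδ, div_self (ne_of_gt (v.pos_iff.mpr hπ0))]
  rw [smul_pow', ← div_pow, hres.pow v hK' h1]

/-- **the count.** -/
theorem card_ssLev_le (hp2 : p ≠ 2)
    (hsurj : ∀ z : κ, ∃ x ∈ K, v x ≤ 1 ∧ res x = z)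
    (hperf : ∀ a ∈ K, v a ≤ 1 → ∃ b ∈ K, v b ≤ 1 ∧ v (b ^ p - a) < 1)
    (hisoG : ∀ g ∈ GK, ∀ x : Ω, v (g • x) = v x)
    {π : Ω} (hπK : π ∈ K) (hπ0 : π ≠ 0) (hπ1 : v π < 1)
    (hdisc : ∀ x ∈ K, x ≠ 0 → ∃ n : ℤ, v x = v π ^ n)
    {e m : ℕ} (hm : 0 < m) (he : e = m * (p - 1)) (hep : v π ^ e = v (p : Ω))
    {s₀ φ : 𝔊} (hs₀D : s₀ ∈ Dd) (hφD : φ ∈ Dd)
    (hiso₀ : ∀ x : Ω, v (s₀ • x) = v x) (hisoφ : ∀ x : Ω, v (φ • x) = v x)
    (hG₀ : ∀ g ∈ GK, s₀⁻¹ * g * s₀ ∈ GK) (hGφ : ∀ g ∈ GK, φ⁻¹ * g * φ ∈ GK)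
    {w₀ wφ : ℕ} (hζ₀ : s₀ • ζ = ζ ^ w₀) (hζφ : φ • ζ = ζ ^ wφ)
    (hw₀ : ¬ p ∣ w₀) (hwφ : ¬ p ∣ wφ)
    (hres₀ : ∀ x ∈ K, v x ≤ 1 → res (s₀ • x) = res x)
    (hresφ : ∀ x ∈ K, v x ≤ 1 → res (φ • x) = res x ^ p)
    {c₀ d₀ x : k} (hc₀ : c₀ ≠ 0) (hd₀ : d₀ ≠ 0) (hcd : c₀ ≠ d₀) (hx : x ≠ 0)
    (hR₀ : R s₀ = !![c₀, 0; 0, d₀]) (hRφ : R φ = !![0, 1; x, 0])
    {t₀ θφ : κ} (ht₀ : res (s₀ • π / π) = t₀) (hθφ : res (φ • π / π) = θφ) (r₀ : ℕ)
    (hTz : ∀ r, r < m → r ≠ r₀ → ∀ Λ : Matrix (Fin 2) (Fin 2) k →+ κ,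
      IsTMap p c₀ d₀ w₀ (t₀ ^ (e + r)) x wφ (θφ ^ (e + r)) Λ → Λ = 0)
    (hTc : Nat.card {Λ : Matrix (Fin 2) (Fin 2) k →+ κ //
      IsTMap p c₀ d₀ w₀ (t₀ ^ (e + r₀)) x wφ (θφ ^ (e + r₀)) Λ} ≤ Nat.card k) :
    Finite {h : 𝔊 → Matrix (Fin 2) (Fin 2) k //
        h ∈ HLev (p := p) v Dd GK K ζ (adAct R) (v (p : Ω)) ∧ ∀ g, (h g).trace = 0} ∧
      Nat.card {h : 𝔊 → Matrix (Fin 2) (Fin 2) k //
        h ∈ HLev (p := p) v Dd GK K ζ (adAct R) (v (p : Ω)) ∧ ∀ g, (h g).trace = 0} ≤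
        Nat.card k := by
  classical
  have hpp : p.Prime := hp.out
  have hp1 : 0 < p - 1 := Nat.sub_pos_of_lt hpp.one_lt
  have hpe : p - 1 + 1 = p := Nat.sub_add_cancel hpp.one_le
  have he0 : 0 < e := by rw [he]; exact Nat.mul_pos hm hp1
  have hvπ0 : 0 < v π := v.pos_iff.mpr hπ0
  have hγ : ∀ r, v (π ^ (e + r)) < 1 := fun r => by
    rw [v.map_pow]; exact pow_lt_one₀ zero_le hπ1 (by omega)
  have hϖK : ∀ i, π ^ i ∈ K := fun i => K.pow_mem hπK i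
  have hϖ0 : ∀ i, π ^ i ≠ 0 := fun i => pow_ne_zero i hπ0
  have hvp : v (p : Ω) < 1 := by rw [← hep]; exact pow_lt_one₀ zero_le hπ1 he0.ne'
  have hlamm : v (ζ - 1) = v π ^ m := by
    have h1 : v (p : Ω) = v (ζ - 1) ^ (p - 1) := val_p_eq v hζ
    have h2 : (v π ^ m) ^ (p - 1) = v (ζ - 1) ^ (p - 1) := by rw [← pow_mul, ← he, hep, h1]
    exact ((pow_left_inj₀ zero_le zero_le hp1.ne').1 h2).symm
  have hlam : v (ζ - 1) < 1 := by rw [hlamm]; exact pow_lt_one₀ zero_le hπ1 hm.ne'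
  have htop : v (π ^ (e + m)) = v (ζ - 1) ^ p := by
    rw [v.map_pow, pow_add, hep, val_p_eq v hζ, ← hlamm, ← pow_succ, hpe]
  have hem : e + m = m * p := by
    rw [he]
    calc m * (p - 1) + m = m * (p - 1 + 1) := by ring
      _ = m * p := by rw [hpe]
  -- uniqueness of leading coefficients at the levels prime to `p`
  have U : ∀ r, r < m → ¬ p ∣ e + r → ∀ (χ : 𝔊 → ZMod p) (a a' : Ω),
      LC v GK K ζ (π ^ (e + r)) χ a → LC v GK K ζ (π ^ (e + r)) χ a' → v (a - a') < 1 := by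
    intro r hr hpr χ a a' ha ha'
    refine lc_unique v hK hζ hζK (hϖ0 _) (hγ r) hvp (fun y hy => ?_) ?_ ha ha'
    · by_cases hy0 : y = 0
      · rw [hy0, v.map_zero, zero_pow hpp.ne_zero]
        exact (ne_of_gt (v.pos_iff.mpr (hϖ0 _))).symm
      · obtain ⟨n, hn⟩ := hdisc y hy hy0
        intro hcon
        rw [hn, v.map_pow, ← zpow_natCast (v π ^ n), ← _root_.zpow_mul, ← zpow_natCast (v π)] at hcon
        have := zpow_right_injective₀ hvπ0 (ne_of_lt hπ1) hcon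
        apply hpr
        have h3 : (p : ℤ) ∣ ((e + r : ℕ) : ℤ) := ⟨n, by rw [← this]; ring⟩
        exact Int.natCast_dvd_natCast.1 h3
    · rw [← hep, v.map_pow, ← pow_mul, ← pow_mul]
      refine pow_lt_pow_right_of_lt_one₀ hvπ0 hπ1 ?_
      have h4 : (e + r) * (p - 1) < (m * p) * (p - 1) := by
        refine Nat.mul_lt_mul_of_pos_right ?_ hp1
        omega
      calc (e + r) * (p - 1) < (m * p) * (p - 1) := h4
        _ = e * p := by rw [he]; ring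
  -- the chain
  let H : ℕ → AddSubgroup (𝔊 → Matrix (Fin 2) (Fin 2) k) := fun r =>
    hSub v hK hζ hζK horb (Dd := Dd) (act := adAct R) (hγ r) ⊓ tr0Sub 𝔊 k
  have hH : ∀ r (h : 𝔊 → Matrix (Fin 2) (Fin 2) k), h ∈ H r ↔
      h ∈ HLev (p := p) v Dd GK K ζ (adAct R) (v (π ^ (e + r))) ∧ ∀ g, (h g).trace = 0 :=
    fun r h => Iff.rfl
  let T : ℕ → Type _ := fun r => {Λ : Matrix (Fin 2) (Fin 2) k →+ κ //
    IsTMap p c₀ d₀ w₀ (t₀ ^ (e + r)) x wφ (θφ ^ (e + r)) Λ}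
  haveI hfinM : Finite (Matrix (Fin 2) (Fin 2) k) :=
    inferInstanceAs (Finite (Fin 2 → Fin 2 → k))
  haveI hfinHom : Finite (Matrix (Fin 2) (Fin 2) k →+ κ) := DFunLike.finite _
  haveI hfinT : ∀ r, Finite (T r) := fun r => Subtype.finite
  have hTmap : ∀ r (hr : r < m) (hpr : ¬ p ∣ e + r) (h : 𝔊 → Matrix (Fin 2) (Fin 2) k)
      (hh : h ∈ HLev (p := p) v Dd GK K ζ (adAct R) (v (π ^ (e + r))))
      (htr : ∀ g, (h g).trace = 0),
      IsTMap p c₀ d₀ w₀ (t₀ ^ (e + r)) x wφ (θφ ^ (e + r))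
        (lamAt v R res hK hζ hζK horb (hϖK _) (hϖ0 _) (hγ r) hres (U r hr hpr) hh) := by
    intro r hr hpr h hh htr
    have := isTMap_lamAt v R res hK hζ hζK horb (hϖK _) (hϖ0 _) (hγ r) hres (U r hr hpr) hh htr
      hs₀D hφD hiso₀ hisoφ hG₀ hGφ hζ₀ hζφ hres₀ hresφ hc₀ hd₀ hx hR₀ hRφ
    rw [res_smul_pow_div v res hK hζ hζK horb hres hπK hπ0 hiso₀ hG₀,
      res_smul_pow_div v res hK hζ hζK horb hres hπK hπ0 hisoφ hGφ, ht₀, hθφ] at this
    exact this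
  let Φ : ∀ r, (𝔊 → Matrix (Fin 2) (Fin 2) k) → T r := fun r h =>
    if hc : (r < m ∧ ¬ p ∣ e + r) ∧
        (h ∈ HLev (p := p) v Dd GK K ζ (adAct R) (v (π ^ (e + r))) ∧ ∀ g, (h g).trace = 0) then
      ⟨lamAt v R res hK hζ hζK horb (hϖK _) (hϖ0 _) (hγ r) hres (U r hc.1.1 hc.1.2) hc.2.1,
        hTmap r hc.1.1 hc.1.2 h hc.2.1 hc.2.2⟩
    else ⟨0, isTMap_zero p hpp.ne_zero c₀ d₀ w₀ _ x wφ _⟩
  -- the top of the chain is trivial
  have hbot : H m = ⊥ := by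
    rw [eq_bot_iff]
    intro h hh
    rw [hH] at hh
    rw [AddSubgroup.mem_bot]
    rw [htop] at hh
    exact top_eq_zero v R res hK hζ hζK horb hres hlam hp2 hsurj hisoG hh.1 hh.2 hs₀D hφD hiso₀
      hisoφ hG₀ hGφ hζ₀ hζφ hw₀ hwφ hres₀ hresφ hc₀ hd₀ hcd hx hR₀ hRφ
  -- the steps
  have hstep : ∀ r, r < m → ∀ a ∈ H r, ∀ b ∈ H r, Φ r a = Φ r b → -b + a ∈ H (r + 1) := by
    intro r hr a ha b hb hab
    have hz : -b + a ∈ H r := (H r).add_mem ((H r).neg_mem hb) ha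
    rw [hH] at ha hb hz
    rw [hH]
    refine ⟨?_, hz.2⟩
    have hlev : ∀ ℓ : Matrix (Fin 2) (Fin 2) k →+ ZMod p,
        SLev v GK K ζ (v π ^ (e + r)) (chi ℓ (-b + a)) := by
      by_cases hpr : p ∣ e + r
      · obtain ⟨q, hq⟩ := hpr
        intro ℓ
        have hq1 : v (π ^ q) < 1 := by
          rw [v.map_pow]
          refine pow_lt_one₀ zero_le hπ1 ?_
          rintro rfl
          omega
        have hlevq : v (π ^ q) ^ p = v (π ^ (e + r)) := by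
          rw [← v.map_pow, ← pow_mul, hq, mul_comm]
        have hqm : q < m := by
          by_contra hcon
          push Not at hcon
          have : m * p ≤ q * p := Nat.mul_le_mul_right p hcon
          rw [mul_comm q p, ← hq] at this
          omega
        have hlt : v (p : Ω) * v (π ^ q) < v (π ^ q) ^ p := by
          rw [← hep, v.map_pow, ← pow_add, ← pow_mul]
          refine pow_lt_pow_right_of_lt_one₀ hvπ0 hπ1 ?_
          have h5 : q * (p - 1) < m * (p - 1) := Nat.mul_lt_mul_of_pos_right hqm hp1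
          have h6 : q * p = q * (p - 1) + q := by
            conv_lhs => rw [← hpe]
            ring
          rw [h6, he]
          omega
        have hz' : -b + a ∈ HLev (p := p) v Dd GK K ζ (adAct R) (v (π ^ q) ^ p) := by
          rw [hlevq]; exact hz.1
        have := slev_of_pdiv_vec v hK hζ hζK horb hperf (hϖK q) (hϖ0 q) hq1 hlt hz' ℓ
        rw [hlevq, v.map_pow] at this
        exact this
      · have hca : (r < m ∧ ¬ p ∣ e + r) ∧
            (a ∈ HLev (p := p) v Dd GK K ζ (adAct R) (v (π ^ (e + r))) ∧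
              ∀ g, (a g).trace = 0) := ⟨⟨hr, hpr⟩, ha⟩
        have hcb : (r < m ∧ ¬ p ∣ e + r) ∧
            (b ∈ HLev (p := p) v Dd GK K ζ (adAct R) (v (π ^ (e + r))) ∧
              ∀ g, (b g).trace = 0) := ⟨⟨hr, hpr⟩, hb⟩
        have hab' : (Φ r a).1 = (Φ r b).1 := congrArg Subtype.val hab
        simp only [Φ, dif_pos hca, dif_pos hcb] at hab'
        intro ℓ
        have := lcFun_fibre v hK hζ hζK horb res (hϖK _) (hϖ0 _) (hγ r) hres ha.1 hb.1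
          (fun ℓ' => by
            obtain ⟨Y, rfl⟩ := trFun_surjective p (k := k) ℓ'
            exact DFunLike.congr_fun hab' Y) ℓ
        rw [v.map_pow] at this
        exact this
    have := mem_hLev_succ v hK hζ hζK horb hπ0 hπ1 hdisc hz.1.1 hlev
    rw [v.map_pow]
    exact this
  -- the count of the chain
  have hcount : Finite (H 0) ∧ Nat.card (H 0) ≤ Nat.card k := by
    have hone : ∀ i, i < m → i ≠ r₀ → Nat.card (T i) = 1 := by
      intro i hi hne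
      rw [Nat.card_eq_one_iff_unique]
      exact ⟨⟨fun a b => Subtype.ext ((hTz i hi hne a.1 a.2).trans (hTz i hi hne b.1 b.2).symm)⟩,
        ⟨⟨0, isTMap_zero p hpp.ne_zero c₀ d₀ w₀ _ x wφ _⟩⟩⟩
    by_cases hr₀ : r₀ < m
    · obtain ⟨hfin, hcard⟩ := chain_card_single m H hbot T Φ hstep r₀ hr₀ hone
      exact ⟨hfin, hcard.trans hTc⟩
    · obtain ⟨hfin, hcard⟩ := chain_card m H hbot T Φ hstep
      refine ⟨hfin, hcard.trans ?_⟩
      have : ∏ i ∈ Finset.range m, Nat.card (T i) = 1 := by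
        refine Finset.prod_eq_one fun i hi => ?_
        rw [Finset.mem_range] at hi
        exact hone i hi (by omega)
      rw [this]
      exact Nat.card_pos
  -- transfer to the statement
  have hset : ∀ h : 𝔊 → Matrix (Fin 2) (Fin 2) k,
      (h ∈ HLev (p := p) v Dd GK K ζ (adAct R) (v (p : Ω)) ∧ ∀ g, (h g).trace = 0) ↔ h ∈ H 0 := by
    intro h
    rw [hH, Nat.add_zero, v.map_pow, hep]
  obtain ⟨hfin, hcard⟩ := hcount
  have hequiv : {h : 𝔊 → Matrix (Fin 2) (Fin 2) k //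
      h ∈ HLev (p := p) v Dd GK K ζ (adAct R) (v (p : Ω)) ∧ ∀ g, (h g).trace = 0} ≃ H 0 :=
    Equiv.subtypeEquivRight hset
  exact ⟨Finite.of_equiv _ hequiv.symm, (Nat.card_congr hequiv).le.trans hcard⟩

end Count

end Fermat.Agent.GP.Flat.SSAsm
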