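/-
GATE-P / S56 [P-FLAT], node S56-FLAT-SSASM (helper50), part (D), the dictionary `k ↔ κ`:
two fields of characteristic `p`, `c₀ ∈ k` with `c₀ ^ e = 1` and `t₀ ∈ κ` a primitive `e`-th root of
unity.  Then `c₀` "is" a power `t₀ ^ j`: they are annihilated by the same integer polynomials.
(No embedding of one field into the other is needed: the minimal polynomial of `c₀` over `𝔽_p`
divides `X ^ e - 1`, which splits in `κ` with roots the powers of `t₀`.)  Mathlib only.
-/
import Mathlib

set_option autoImplicit false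
set_option linter.style.haveILetI false

open Polynomial

namespace Fermat.Agent.GP.Flat.SSAsm

section Dict

/-- integer polynomials evaluate through their reduction mod `p`. -/
theorem aeval_int_eq_aeval_zmod (p : ℕ) [Fact p.Prime] {A : Type*} [Field A] [CharP A p] (a : A)
    (P : ℤ[X]) :
    (letI := ZMod.algebra A p; aeval a (P.map (Int.castRingHom (ZMod p)))) = aeval a P := by
  letI := ZMod.algebra A p
  have := aeval_map_algebraMap (ZMod p) a P
  rwa [algebraMap_int_eq] at this

/-- **the dictionary.** -/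
theorem exists_dict (p : ℕ) [Fact p.Prime] {k κ : Type*} [Field k] [Field κ] [CharP k p]
    [CharP κ p] {e : ℕ} (he : 0 < e) {c₀ : k} {t₀ : κ} (hc : c₀ ^ e = 1)
    (ht : IsPrimitiveRoot t₀ e) :
    ∃ j, j < e ∧ ∀ P : ℤ[X], aeval c₀ P = 0 ↔ aeval (t₀ ^ j) P = 0 := by
  letI := ZMod.algebra k p
  letI := ZMod.algebra κ p
  haveI : NeZero e := ⟨he.ne'⟩
  have hint : IsIntegral (ZMod p) c₀ :=
    ⟨X ^ e - C 1, monic_X_pow_sub_C 1 he.ne', by simp [hc]⟩
  have hMdvd : minpoly (ZMod p) c₀ ∣ X ^ e - C 1 := minpoly.dvd _ _ (by simp [hc])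
  have hMirr : Irreducible (minpoly (ZMod p) c₀) := minpoly.irreducible hint
  have hMmonic : (minpoly (ZMod p) c₀).Monic := minpoly.monic hint
  have hsplit : Splits ((minpoly (ZMod p) c₀).map (algebraMap (ZMod p) κ)) := by
    have h1 : (minpoly (ZMod p) c₀).map (algebraMap (ZMod p) κ) ∣ X ^ e - C (1 : κ) := by
      have := Polynomial.map_dvd (algebraMap (ZMod p) κ) hMdvd
      simpa using this
    exact (X_pow_sub_one_splits ht).of_dvd (X_pow_sub_C_ne_zero he 1) h1
  have hdeg : degree ((minpoly (ZMod p) c₀).map (algebraMap (ZMod p) κ)) ≠ 0 := by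
    rw [degree_map]
    exact (minpoly.degree_pos hint).ne'
  obtain ⟨β, hβ⟩ := hsplit.exists_eval_eq_zero hdeg
  have hβM : aeval β (minpoly (ZMod p) c₀) = 0 := by
    rwa [eval_map, ← aeval_def] at hβ
  have hβe : β ^ e = 1 := by
    obtain ⟨Q, hQ⟩ := hMdvd
    have h2 := congrArg (aeval β) hQ
    rw [map_mul, hβM, zero_mul] at h2
    simp only [map_sub, map_pow, aeval_X, aeval_C, map_one] at h2
    exact sub_eq_zero.1 h2
  obtain ⟨j, hj, rfl⟩ := ht.eq_pow_of_pow_eq_one hβe
  refine ⟨j, hj, fun P => ?_⟩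
  have hMβ : minpoly (ZMod p) c₀ = minpoly (ZMod p) (t₀ ^ j) :=
    minpoly.eq_of_irreducible_of_monic hMirr hβM hMmonic
  rw [← aeval_int_eq_aeval_zmod p c₀ P, ← aeval_int_eq_aeval_zmod p (t₀ ^ j) P,
    ← minpoly.dvd_iff, ← minpoly.dvd_iff, hMβ]

/-- elements fixed by Frobenius are integers. -/
theorem exists_int_of_pow_eq_self (p : ℕ) [Fact p.Prime] {κ : Type*} [Field κ] [CharP κ p]
    (z : κ) (hz : z ^ p = z) : ∃ n : ℤ, (n : κ) = z := by
  classical
  have hp : p.Prime := Fact.out
  let f : ZMod p →+* κ := ZMod.castHom (dvd_refl p) κ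
  have hf : Function.Injective f := f.injective
  by_contra hcon
  push Not at hcon
  have hzS : z ∉ Finset.univ.image f := by
    intro hmem
    obtain ⟨a, -, rfl⟩ := Finset.mem_image.1 hmem
    refine hcon (a.val : ℤ) ?_
    simp [f]
  have hq0 : (X ^ p - X : κ[X]) ≠ 0 := FiniteField.X_pow_card_sub_X_ne_zero κ hp.one_lt
  have hsub : (insert z (Finset.univ.image f)).val ⊆ (X ^ p - X : κ[X]).roots := by
    intro y hy
    rw [Finset.mem_val, Finset.mem_insert] at hy
    rw [mem_roots hq0, IsRoot.def, eval_sub, eval_pow, eval_X, sub_eq_zero]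
    rcases hy with rfl | hy
    · exact hz
    · obtain ⟨a, -, rfl⟩ := Finset.mem_image.1 hy
      rw [← map_pow, ZMod.pow_card]
  have hcard := card_le_degree_of_subset_roots hsub
  rw [FiniteField.X_pow_card_sub_X_natDegree_eq κ hp.one_lt, Finset.card_insert_of_notMem hzS,
    Finset.card_image_of_injective _ hf, Finset.card_univ, ZMod.card] at hcard
  omega

end Dict

end Fermat.Agent.GP.Flat.SSAsm
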