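/-
GATE-P / S56 [P-FLAT], node S56-FLAT-SSASM (helper50), part (D), arithmetic instance:
**the graded pieces of the supersingular count at the levels `p² - 1 ≤ i < p² + p`**.

`t₀ ∈ Ω` a primitive `(p² - 1)`-th root of unity (`= θ(s₀)`, the fundamental character of level two
at a generator `s₀` of tame inertia), `(w₀ : Ω) = t₀^(p+1)` (`ω = θ^(p+1)`), and the eigenvalue
`a = w₀ c₀ d₀⁻¹` of `s₀` on the `E₁₂`-line of `ad⁰(1)` is a root of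
`X² - n₁ X + n₀ ≡ (X - t₀²)(X - t₀^(2p))`   (`ψ ∈ {θ, θ^p}`: TAMEWEIGHT (L6)).
Then the `T`-maps of level `i` (`b₀ = t₀^i`, `tφ = θφ^i`) vanish for every `i ≠ p² + 1` in the window
and are at most `#k` for `i = p² + 1`.
-/
import Fermat.Agent.GP.Flat.SSAsm.TCount

set_option autoImplicit false

open Matrix Polynomial

namespace Fermat.Agent.GP.Flat.SSAsm

section Arith

/-- window arithmetic. -/
theorem window_lt {p : ℕ} (hp3 : 3 ≤ p) : p + 1 < p ^ 2 - 1 ∧ 2 * p < p ^ 2 - 1 ∧ 2 < p ^ 2 - 1 := by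
  have h : 3 * p ≤ p ^ 2 := by nlinarith
  refine ⟨?_, ?_, ?_⟩ <;> omega

variable {Ω : Type*} [Field Ω] {p : ℕ} {t₀ : Ω}

theorem pow_window (ht₀ : IsPrimitiveRoot t₀ (p ^ 2 - 1)) {i : ℕ} (hi : p ^ 2 - 1 ≤ i) :
    t₀ ^ i = t₀ ^ (i - (p ^ 2 - 1)) := by
  have : i = (p ^ 2 - 1) + (i - (p ^ 2 - 1)) := by omega
  conv_lhs => rw [this, pow_add, ht₀.pow_eq_one, one_mul]

theorem pow_ne_of_window (ht₀ : IsPrimitiveRoot t₀ (p ^ 2 - 1)) (hp3 : 3 ≤ p) {i m : ℕ}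
    (hi : p ^ 2 - 1 ≤ i) (hi' : i < p ^ 2 + p) (hm : m < p ^ 2 - 1)
    (hne : i - (p ^ 2 - 1) ≠ m) : t₀ ^ i ≠ t₀ ^ m := by
  rw [pow_window ht₀ hi]
  intro h
  have hlt : i - (p ^ 2 - 1) < p ^ 2 - 1 := by
    obtain ⟨h1, -, -⟩ := window_lt hp3
    omega
  exact hne (ht₀.pow_inj hlt hm h)

end Arith

section Level

variable {k Ω : Type*} [Field k] [Field Ω] {p : ℕ} [Fact p.Prime]

/-- **vanishing of `T_i`** for `i ≠ p² + 1` in the window. -/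
theorem tlevel_eq_zero (hp3 : 3 ≤ p) {c₀ d₀ : k} {w₀ : ℕ} {x : k} {wφ : ℕ} {t₀ θφ : Ω}
    (hc₀ : c₀ ≠ 0) (hd₀ : d₀ ≠ 0) (hx : x ≠ 0) (hwφ : (wφ : k) ≠ 0)
    (ht₀ : IsPrimitiveRoot t₀ (p ^ 2 - 1)) (hw₀ : (w₀ : Ω) = t₀ ^ (p + 1))
    (n₁ n₀ : ℤ)
    (hquad : ((w₀ : k) * c₀ * d₀⁻¹) ^ 2 - (n₁ : k) * ((w₀ : k) * c₀ * d₀⁻¹) + (n₀ : k) = 0)
    (hn₁ : (n₁ : Ω) = t₀ ^ 2 + t₀ ^ (2 * p)) (hn₀ : (n₀ : Ω) = t₀ ^ 2 * t₀ ^ (2 * p))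
    {i : ℕ} (hi : p ^ 2 - 1 ≤ i) (hi' : i < p ^ 2 + p) (hi₀ : i ≠ p ^ 2 + 1)
    {Λ : Matrix (Fin 2) (Fin 2) k →+ Ω}
    (hΛ : IsTMap p c₀ d₀ w₀ (t₀ ^ i) x wφ (θφ ^ i) Λ) : Λ = 0 := by
  have hp : p.Prime := Fact.out
  obtain ⟨h1, h2, h3⟩ := window_lt hp3
  have hp2 : 1 ≤ p ^ 2 := Nat.one_le_pow _ _ hp.pos
  have hw : (w₀ : Ω) ≠ t₀ ^ i := by
    rw [hw₀]
    exact (pow_ne_of_window ht₀ hp3 hi hi' h1 (by omega)).symm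
  refine hΛ.eq_zero hp.ne_zero hc₀ hd₀ hx hwφ hw (X ^ 2 - C n₁ * X + C n₀) ?_ ?_
  · simp only [map_add, map_sub, map_mul, map_pow, aeval_X, aeval_C, algebraMap_int_eq,
      eq_intCast, map_intCast]
    exact hquad
  · simp only [map_add, map_sub, map_mul, map_pow, aeval_X, aeval_C, algebraMap_int_eq,
      eq_intCast, map_intCast]
    rw [hn₁, hn₀]
    have e : (t₀ ^ i) ^ 2 - (t₀ ^ 2 + t₀ ^ (2 * p)) * t₀ ^ i + t₀ ^ 2 * t₀ ^ (2 * p) =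
        (t₀ ^ i - t₀ ^ 2) * (t₀ ^ i - t₀ ^ (2 * p)) := by ring
    rw [e]
    refine mul_ne_zero (sub_ne_zero.2 ?_) (sub_ne_zero.2 ?_)
    · exact pow_ne_of_window ht₀ hp3 hi hi' h3 (by omega)
    · exact pow_ne_of_window ht₀ hp3 hi hi' h2 (by omega)

/-- **the count of `T_{p²+1}`.** -/
theorem tlevel_card_le [Finite k] [CharP k p] [CharP Ω p] (hp3 : 3 ≤ p)
    {c₀ d₀ : k} {w₀ : ℕ} {x : k} {wφ : ℕ} {t₀ θφ : Ω}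
    (hc₀ : c₀ ≠ 0) (hd₀ : d₀ ≠ 0) (hx : x ≠ 0) (hwφ : (wφ : k) ≠ 0)
    (ht₀ : IsPrimitiveRoot t₀ (p ^ 2 - 1)) (hw₀ : (w₀ : Ω) = t₀ ^ (p + 1)) (hθφ : θφ ≠ 0)
    (ha : ((w₀ : k) * c₀ * d₀⁻¹) ^ p ≠ (w₀ : k) * c₀ * d₀⁻¹) :
    Finite {Λ : Matrix (Fin 2) (Fin 2) k →+ Ω //
        IsTMap p c₀ d₀ w₀ (t₀ ^ (p ^ 2 + 1)) x wφ (θφ ^ (p ^ 2 + 1)) Λ} ∧
      Nat.card {Λ : Matrix (Fin 2) (Fin 2) k →+ Ω //
        IsTMap p c₀ d₀ w₀ (t₀ ^ (p ^ 2 + 1)) x wφ (θφ ^ (p ^ 2 + 1)) Λ} ≤ Nat.card k := by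
  have hp : p.Prime := Fact.out
  obtain ⟨h1, h2, h3⟩ := window_lt hp3
  have hp2 : 1 ≤ p ^ 2 := Nat.one_le_pow _ _ hp.pos
  have hw : (w₀ : Ω) ≠ t₀ ^ (p ^ 2 + 1) := by
    rw [hw₀]
    exact (pow_ne_of_window ht₀ hp3 (by omega) (by omega) h1 (by omega)).symm
  exact IsTMap.card_le c₀ d₀ w₀ _ x wφ _ hc₀ hd₀ hx hwφ hw (pow_ne_zero _ hθφ) ha

end Level

end Fermat.Agent.GP.Flat.SSAsm
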