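/-
GATE-P / S56 [P-FLAT], node S56-FLAT-SSASM (helper50), part (D), the `T`-bounds from ORDERS only:
`K` of ramification `e = m (p-1)`, `d m = p + 1`; `t₀ ∈ κ` a primitive `e`-th root of unity
(`= θ̄_K(s₀)` for a generator `s₀` of tame inertia), `(w₀ : κ) = t₀^m` (`ω = θ̄_K^m`), and `c₀ ∈ k` of
order exactly `e` with `c₀^(p+1) = w₀` (`det = ω`), `d₀ = c₀^p`.  Then the `T`-maps at a level `i`
of the window `e ≤ i < e + m` vanish unless `d = 1` and `i = p² + 1`, where they are at most `#k`.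
No relation between `k` and `κ` is assumed (`SSAsm/Dict.exists_dict`), no Raynaud (L6): the index
arithmetic is helper25's `EigenCountIdxGen`.
-/
import Fermat.Agent.GP.Flat.SSAsm.TLevel
import Fermat.Agent.GP.Flat.SSAsm.Dict
import Fermat.Agent.GP.Flat.EigenCountIdxGen

set_option autoImplicit false

open Matrix Polynomial
open Fermat.Agent.GP.Flat.EigenCount

namespace Fermat.Agent.GP.Flat.SSAsm

section Gen

variable {k κ : Type*} [Field k] [Field κ] {p : ℕ} [Fact p.Prime]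

theorem pow_eq_pow_iff_zmod {t₀ : κ} {e : ℕ} (ht : IsPrimitiveRoot t₀ e) (he : 0 < e) (a b : ℕ) :
    t₀ ^ a = t₀ ^ b ↔ (a : ℤ) ≡ b [ZMOD e] := by
  have h0 : t₀ ≠ 0 := ht.ne_zero he.ne'
  rw [Int.modEq_iff_dvd, ← ht.zpow_eq_one_iff_dvd, zpow_sub₀ h0, zpow_natCast, zpow_natCast]
  constructor
  · intro h
    rw [h, div_self (pow_ne_zero _ h0)]
  · intro h
    exact ((div_eq_one_iff_eq (pow_ne_zero a h0)).1 h).symm

/-- the data extracted from the dictionary. -/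
theorem exists_level_data [CharP k p] [CharP κ p] (hp3 : 3 ≤ p)
    {c₀ d₀ : k} {w₀ : ℕ} {t₀ : κ} {e m d : ℕ}
    (hdm : d * m = p + 1) (he : e = m * (p - 1))
    (hc₀ : orderOf c₀ = e) (hd₀ : d₀ = c₀ ^ p)
    (ht₀ : IsPrimitiveRoot t₀ e) (hw₀ : (w₀ : κ) = t₀ ^ m) (hdet : c₀ ^ (p + 1) = (w₀ : k)) :
    ∃ j J : ℕ, Odd ((j : ℤ) * d) ∧ (J : ℤ) ≡ m - j * ((p : ℤ) - 1) [ZMOD (m : ℤ) * ((p : ℤ) - 1)] ∧
      ∀ P : ℤ[X], aeval ((w₀ : k) * c₀ * d₀⁻¹) P = 0 ↔ aeval (t₀ ^ J) P = 0 := by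
  have hp : p.Prime := Fact.out
  have hp1 : 1 ≤ p := hp.one_le
  have hm0 : 0 < m := by
    rcases Nat.eq_zero_or_pos m with h | h
    · rw [h, mul_zero] at hdm; omega
    · exact h
  have he0 : 0 < e := by rw [he]; exact Nat.mul_pos hm0 (by omega)
  have hce : c₀ ^ e = 1 := by rw [← hc₀]; exact pow_orderOf_eq_one c₀
  have hc0 : c₀ ≠ 0 := by
    intro h
    rw [h, zero_pow he0.ne'] at hce
    exact zero_ne_one hce
  have heZ : (e : ℤ) = (m : ℤ) * ((p : ℤ) - 1) := by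
    rw [he]; push_cast [Nat.cast_sub hp1]; ring
  obtain ⟨j, hj, hdict⟩ := exists_dict p he0 hce ht₀
  -- the determinant relation
  have h1 : aeval (t₀ ^ j) (X ^ (p + 1) - (w₀ : ℤ[X]) : ℤ[X]) = 0 := by
    rw [← hdict]
    simp only [map_sub, map_pow, aeval_X, map_natCast]
    rw [hdet, sub_self]
  have h2 : t₀ ^ (j * (p + 1)) = t₀ ^ m := by
    simp only [map_sub, map_pow, aeval_X, map_natCast] at h1
    rw [pow_mul, sub_eq_zero.1 h1, hw₀]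
  have h3 := (pow_eq_pow_iff_zmod ht₀ he0 _ _).1 h2
  -- `j d` is odd
  have hodd : Odd ((j : ℤ) * d) := by
    obtain ⟨u, hu⟩ := (Int.modEq_iff_dvd.1 h3)
    have hdmZ : (d : ℤ) * m = p + 1 := by exact_mod_cast hdm
    obtain ⟨q, hq⟩ := hp.odd_of_ne_two (by omega)
    have hmZ : (m : ℤ) ≠ 0 := by exact_mod_cast hm0.ne'
    have h4 : (m : ℤ) * (1 - j * d) = (m : ℤ) * (((p : ℤ) - 1) * u) := by
      have : ((j * (p + 1) : ℕ) : ℤ) = j * (d * m) := by push_cast; rw [hdmZ]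
      rw [this, heZ] at hu
      linear_combination hu
    have h5 := mul_left_cancel₀ hmZ h4
    refine ⟨-(q * u), ?_⟩
    have hpq : (p : ℤ) = 2 * q + 1 := by exact_mod_cast hq
    rw [hpq] at h5
    linear_combination -h5
  -- the eigenvalue as a monomial in `c₀`
  have hcinv : c₀ ^ (e - 1) = c₀⁻¹ := by
    refine eq_inv_of_mul_eq_one_right ?_
    rw [← pow_succ', Nat.sub_add_cancel he0, hce]
  have ha : (w₀ : k) * c₀ * d₀⁻¹ = aeval c₀ ((w₀ : ℤ[X]) * X ^ (1 + p * (e - 1)) : ℤ[X]) := by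
    simp only [map_mul, map_pow, aeval_X, map_natCast]
    rw [pow_add, pow_one, mul_comm p, pow_mul, hcinv, inv_pow, hd₀, mul_assoc]
  have hα : t₀ ^ (m + j * (1 + p * (e - 1))) =
      aeval (t₀ ^ j) ((w₀ : ℤ[X]) * X ^ (1 + p * (e - 1)) : ℤ[X]) := by
    simp only [map_mul, map_pow, aeval_X, map_natCast]
    rw [hw₀, pow_add, ← pow_mul]
  refine ⟨j, m + j * (1 + p * (e - 1)), hodd, ?_, fun P => ?_⟩
  · rw [Int.modEq_iff_dvd, ← heZ]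
    refine ⟨-(j * p), ?_⟩
    push_cast [Nat.cast_sub he0]
    ring
  · rw [ha, hα, ← aeval_comp, ← aeval_comp]
    exact hdict _

/-- **vanishing of `T_i`** unless `d = 1` and `i = p² + 1`. -/
theorem tlevelGen_eq_zero [CharP k p] [CharP κ p] (hp3 : 3 ≤ p)
    {c₀ d₀ : k} {w₀ : ℕ} {x : k} {wφ : ℕ} {t₀ θφ : κ} {e m d : ℕ}
    (hdm : d * m = p + 1) (he : e = m * (p - 1))
    (hc₀ : orderOf c₀ = e) (hd₀ : d₀ = c₀ ^ p) (hx : x ≠ 0) (hwφ : (wφ : k) ≠ 0)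
    (ht₀ : IsPrimitiveRoot t₀ e) (hw₀ : (w₀ : κ) = t₀ ^ m) (hdet : c₀ ^ (p + 1) = (w₀ : k))
    {i : ℕ} (hi : e ≤ i) (hi' : i < e + m) (hne : d ≠ 1 ∨ i ≠ p ^ 2 + 1)
    {Λ : Matrix (Fin 2) (Fin 2) k →+ κ}
    (hΛ : IsTMap p c₀ d₀ w₀ (t₀ ^ i) x wφ (θφ ^ i) Λ) : Λ = 0 := by
  have hp : p.Prime := Fact.out
  have hp1 : 1 ≤ p := hp.one_le
  have hm0 : 0 < m := by
    rcases Nat.eq_zero_or_pos m with h | h
    · rw [h, mul_zero] at hdm; omega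
    · exact h
  have hd0' : 0 < d := by
    rcases Nat.eq_zero_or_pos d with h | h
    · rw [h, zero_mul] at hdm; omega
    · exact h
  have he0 : 0 < e := by rw [he]; exact Nat.mul_pos hm0 (by omega)
  have hce : c₀ ^ e = 1 := by rw [← hc₀]; exact pow_orderOf_eq_one c₀
  have hc0 : c₀ ≠ 0 := by
    intro h
    rw [h, zero_pow he0.ne'] at hce
    exact zero_ne_one hce
  have hd0 : d₀ ≠ 0 := by rw [hd₀]; exact pow_ne_zero _ hc0
  have heZ : (e : ℤ) = (m : ℤ) * ((p : ℤ) - 1) := by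
    rw [he]; push_cast [Nat.cast_sub hp1]; ring
  have hdmZ : (d : ℤ) * m = p + 1 := by exact_mod_cast hdm
  have hp3Z : (3 : ℤ) ≤ p := by exact_mod_cast hp3
  have hdZ : (0 : ℤ) < d := by exact_mod_cast hd0'
  have hmZ : (0 : ℤ) < m := by exact_mod_cast hm0
  have hiZ1 : (m : ℤ) * ((p : ℤ) - 1) ≤ i := by rw [← heZ]; exact_mod_cast hi
  have hiZ2 : (i : ℤ) < (m : ℤ) * ((p : ℤ) - 1) + m := by rw [← heZ]; exact_mod_cast hi'
  have hpe : p ^ 2 = d * e + 1 := by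
    rw [he, ← mul_assoc, hdm]
    obtain ⟨q, rfl⟩ : ∃ q, p = q + 1 := ⟨p - 1, by omega⟩
    simp only [Nat.add_sub_cancel]
    ring
  obtain ⟨j, J, hodd, hJ, htrans⟩ := exists_level_data hp3 hdm he hc₀ hd₀ ht₀ hw₀ hdet
  have hαpp : (t₀ ^ J) ^ p ^ 2 = t₀ ^ J := by
    rw [hpe, pow_succ, pow_mul', ← pow_mul t₀ J e, mul_comm J e, pow_mul, ht₀.pow_eq_one, one_pow,
      one_pow, one_mul]
  have hpodd : Odd (p : ℤ) := by
    have := hp.odd_of_ne_two (by omega)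
    exact_mod_cast this
  -- the three character mismatches
  have hw : (w₀ : κ) ≠ t₀ ^ i := by
    rw [hw₀]
    intro h
    have h1 := (pow_eq_pow_iff_zmod ht₀ he0 _ _).1 h
    rw [heZ] at h1
    have := idx_gen_delta hp3Z hmZ hiZ1 (le_of_lt hiZ2) h1.symm
    omega
  have hne1 : t₀ ^ i ≠ t₀ ^ J := by
    intro h
    have h1 := (pow_eq_pow_iff_zmod ht₀ he0 _ _).1 h
    rw [heZ] at h1
    obtain ⟨hd1, hi1, -⟩ := idx_gen_sub hp3Z hdZ hdmZ hodd hiZ1 hiZ2 (h1.trans hJ)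
    have hd1' : d = 1 := by exact_mod_cast hd1
    have hi1' : i = p ^ 2 + 1 := by exact_mod_cast hi1
    rcases hne with h | h
    · exact h hd1'
    · exact h hi1'
  have hne2 : t₀ ^ i ≠ (t₀ ^ J) ^ p := by
    intro h
    rw [← pow_mul] at h
    have h1 := (pow_eq_pow_iff_zmod ht₀ he0 _ _).1 h
    rw [heZ] at h1
    have h2 : ((J * p : ℕ) : ℤ) ≡ (m : ℤ) - ((j : ℤ) * p) * ((p : ℤ) - 1)
        [ZMOD (m : ℤ) * ((p : ℤ) - 1)] := by
      have h3 := hJ.mul_right (p : ℤ)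
      push_cast
      refine h3.trans ?_
      rw [Int.modEq_iff_dvd]
      exact ⟨-1, by ring⟩
    have hodd' : Odd (((j : ℤ) * p) * d) := by
      have : ((j : ℤ) * p) * d = ((j : ℤ) * d) * p := by ring
      rw [this]
      exact hodd.mul hpodd
    obtain ⟨hd1, hi1, -⟩ := idx_gen_sub hp3Z hdZ hdmZ hodd' hiZ1 hiZ2 (h1.trans h2)
    have hd1' : d = 1 := by exact_mod_cast hd1
    have hi1' : i = p ^ 2 + 1 := by exact_mod_cast hi1
    rcases hne with h | h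
    · exact h hd1'
    · exact h hi1'
  generalize t₀ ^ J = α at hαpp hne1 hne2 htrans
  obtain ⟨n₁, hn₁⟩ := exists_int_of_pow_eq_self p (α + α ^ p) (by
    rw [add_pow_char, ← pow_mul, ← sq, hαpp, add_comm])
  obtain ⟨n₀, hn₀⟩ := exists_int_of_pow_eq_self p (α ^ (p + 1)) (by
    rw [← pow_mul, mul_comm, pow_mul, pow_succ (α ^ p), ← pow_mul, ← sq, hαpp, mul_comm,
      ← pow_succ])
  refine hΛ.eq_zero hp.ne_zero hc0 hd0 hx hwφ hw (X ^ 2 - C n₁ * X + C n₀) ?_ ?_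
  · rw [htrans]
    simp only [map_add, map_sub, map_mul, map_pow, aeval_X, aeval_C, algebraMap_int_eq,
      eq_intCast, map_intCast]
    rw [hn₁, hn₀]
    ring
  · simp only [map_add, map_sub, map_mul, map_pow, aeval_X, aeval_C, algebraMap_int_eq,
      eq_intCast, map_intCast]
    rw [hn₁, hn₀]
    have e1 : (t₀ ^ i) ^ 2 - (α + α ^ p) * t₀ ^ i + α ^ (p + 1) =
        (t₀ ^ i - α) * (t₀ ^ i - α ^ p) := by ring
    rw [e1]
    exact mul_ne_zero (sub_ne_zero.2 hne1) (sub_ne_zero.2 hne2)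

/-- the eigenvalue on the `E₁₂`-line is not in `𝔽_p` when `c₀` has order `p² - 1`. -/
theorem eigen_pow_ne [CharP k p] (hp3 : 3 ≤ p) {c₀ d₀ : k} {w₀ : ℕ}
    (hc₀ : orderOf c₀ = p ^ 2 - 1) (hd₀ : d₀ = c₀ ^ p) (hdet : c₀ ^ (p + 1) = (w₀ : k)) :
    ((w₀ : k) * c₀ * d₀⁻¹) ^ p ≠ (w₀ : k) * c₀ * d₀⁻¹ := by
  have hp : p.Prime := Fact.out
  have hp2 : 1 < p ^ 2 := Nat.one_lt_pow (by norm_num) hp.one_lt
  have he0 : 0 < p ^ 2 - 1 := by omega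
  have hce : c₀ ^ (p ^ 2 - 1) = 1 := by rw [← hc₀]; exact pow_orderOf_eq_one c₀
  have hc0 : c₀ ≠ 0 := by
    intro h
    rw [h, zero_pow he0.ne'] at hce
    exact zero_ne_one hce
  have hw0 : (w₀ : k) ≠ 0 := by rw [← hdet]; exact pow_ne_zero _ hc0
  have hwp : (w₀ : k) ^ p = w₀ := by
    have := map_natCast (frobenius k p) w₀
    rwa [frobenius_def] at this
  intro h
  -- `a c₀^p = w₀ c₀`
  have hcp0 : c₀ ^ p ≠ 0 := pow_ne_zero _ hc0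
  have h1 : ((w₀ : k) * c₀ * d₀⁻¹) * c₀ ^ p = (w₀ : k) * c₀ := by
    rw [hd₀, mul_assoc, inv_mul_cancel₀ hcp0, mul_one]
  have h2 : ((w₀ : k) * c₀ * d₀⁻¹) * (c₀ ^ p) ^ p = (w₀ : k) * c₀ ^ p := by
    have h2' : (((w₀ : k) * c₀ * d₀⁻¹) * c₀ ^ p) ^ p = ((w₀ : k) * c₀) ^ p := by rw [h1]
    rw [mul_pow, mul_pow (w₀ : k) c₀, h, hwp] at h2'
    exact h2'
  -- `w₀ c₀ d₀⁻¹ (c₀^p)^p = w₀ c₀^p`
  have h3 : c₀ * (c₀ ^ p) ^ p = c₀ ^ p * c₀ ^ p := by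
    have h4 : (w₀ : k) * c₀ * d₀⁻¹ * (c₀ ^ p) ^ p * c₀ ^ p =
        (w₀ : k) * c₀ ^ p * c₀ ^ p := by rw [h2]
    rw [hd₀] at h4
    have h5 : (w₀ : k) * c₀ * (c₀ ^ p)⁻¹ * (c₀ ^ p) ^ p * c₀ ^ p =
        (w₀ : k) * (c₀ * (c₀ ^ p) ^ p) := by
      field_simp
    rw [h5, mul_assoc] at h4
    exact mul_left_cancel₀ hw0 h4
  -- `c₀^((p-1)^2) = 1`
  have h6 : c₀ ^ (1 + p * p) = c₀ ^ (p + p) := by
    rw [pow_add, pow_one, pow_mul, h3, pow_add]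
  have h7 : c₀ ^ ((p - 1) ^ 2) = 1 := by
    have h8 : 1 + p * p = (p - 1) ^ 2 + (p + p) := by
      obtain ⟨q, rfl⟩ : ∃ q, p = q + 1 := ⟨p - 1, by have := hp.one_le; omega⟩
      simp only [Nat.add_sub_cancel]
      ring
    rw [h8, pow_add] at h6
    have h9 : c₀ ^ (p + p) ≠ 0 := pow_ne_zero _ hc0
    exact mul_right_cancel₀ h9 (h6.trans (one_mul _).symm)
  have h10 : p ^ 2 - 1 ∣ (p - 1) ^ 2 := by rw [← hc₀]; exact orderOf_dvd_of_pow_eq_one h7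
  have h11 : 0 < (p - 1) ^ 2 := by
    have : 0 < p - 1 := by have := hp.one_lt; omega
    positivity
  have h12 := Nat.le_of_dvd h11 h10
  have h13 : (p - 1) ^ 2 < p ^ 2 - 1 := by
    obtain ⟨q, rfl⟩ : ∃ q, p = q + 1 := ⟨p - 1, by have := hp.one_le; omega⟩
    simp only [Nat.add_sub_cancel]
    have hq : 2 ≤ q := by omega
    have : (q + 1) ^ 2 = q ^ 2 + 2 * q + 1 := by ring
    omega
  omega

/-- **the count of `T_{p²+1}`** from orders only. -/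
theorem tlevelGen_card_le [Finite k] [CharP k p] [CharP κ p] (hp3 : 3 ≤ p)
    {c₀ d₀ : k} {w₀ : ℕ} {x : k} {wφ : ℕ} {t₀ θφ : κ}
    (hc₀ : orderOf c₀ = p ^ 2 - 1) (hd₀ : d₀ = c₀ ^ p) (hx : x ≠ 0) (hwφ : (wφ : k) ≠ 0)
    (ht₀ : IsPrimitiveRoot t₀ (p ^ 2 - 1)) (hw₀ : (w₀ : κ) = t₀ ^ (p + 1)) (hθφ : θφ ≠ 0)
    (hdet : c₀ ^ (p + 1) = (w₀ : k)) :
    Nat.card {Λ : Matrix (Fin 2) (Fin 2) k →+ κ //
        IsTMap p c₀ d₀ w₀ (t₀ ^ (p ^ 2 + 1)) x wφ (θφ ^ (p ^ 2 + 1)) Λ} ≤ Nat.card k := by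
  have hp : p.Prime := Fact.out
  have hp2 : 1 < p ^ 2 := Nat.one_lt_pow (by norm_num) hp.one_lt
  have he0 : 0 < p ^ 2 - 1 := by omega
  have hce : c₀ ^ (p ^ 2 - 1) = 1 := by rw [← hc₀]; exact pow_orderOf_eq_one c₀
  have hc0 : c₀ ≠ 0 := by
    intro h
    rw [h, zero_pow he0.ne'] at hce
    exact zero_ne_one hce
  have hd0 : d₀ ≠ 0 := by rw [hd₀]; exact pow_ne_zero _ hc0
  exact (tlevel_card_le hp3 hc0 hd0 hx hwφ ht₀ hw₀ hθφ (eigen_pow_ne hp3 hc₀ hd₀ hdet)).2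

end Gen

end Fermat.Agent.GP.Flat.SSAsm
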