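/-
GATE-P / S56 [P-FLAT], node S56-FLAT-SSASM (helper50), part (D), FINAL abstract count:
**`#{traceless admissible maps of level ≥ v p} ≤ #k`** in the frame of `GP/Flat/SSChainVec`, the
level-two data entering through ORDERS only:

* `K` has ramification index `e = m (p-1)` (`v π^e = v p`), `d m = p + 1`;
* `s₀ ∈ D` acts trivially on `κ`, `t₀ = res (s₀π/π)` is a primitive `e`-th root of unity
  (`s₀` generates tame inertia), `R s₀ = diag (c₀, c₀^p)` with `c₀` of order `e`,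
  `c₀^p ≠ c₀`, `c₀^(p+1) = w₀` where `s₀ ζ = ζ^w₀` (`det = ω`);
* `φ ∈ D` acts by Frobenius on `κ`, `R φ = [[0,1],[x,0]]`, `φ ζ = ζ^wφ`.
No relation between `k` and `κ`, no Raynaud (L6).
-/
import Fermat.Agent.GP.Flat.SSAsm.Count
import Fermat.Agent.GP.Flat.SSAsm.TLevelGen

set_option autoImplicit false
set_option linter.unusedSectionVars false

open Matrix
open Fermat.Agent.GP.Ram.KummerBreak Fermat.Agent.GP.Ram.UnitFilt
  Fermat.Agent.GP.Ram.UnitFiltTop Fermat.Agent.GP.Flat.SSKummer Fermat.Agent.GP.Flat.SSChain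
  Fermat.Agent.GP.Flat.SSChainVec

namespace Fermat.Agent.GP.Flat.SSAsm

section Final

variable {Ω : Type*} [Field Ω] {Γ₀ : Type*} [LinearOrderedCommGroupWithZero Γ₀]
  (v : Valuation Ω Γ₀) {p : ℕ} [hp : Fact p.Prime]
  {𝔊 : Type*} [Group 𝔊] [MulSemiringAction 𝔊 Ω] {Dd GK : Subgroup 𝔊} {K : Subfield Ω} {ζ : Ω}
  {κ : Type*} [Field κ] (res : Ω → κ)

variable (hK : ∀ x, x ∈ K ↔ ∀ g ∈ GK, g • x = x) (hζ : IsPrimitiveRoot ζ p) (hζK : ζ ∈ K)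
  (horb : ∀ x : Ω, (Set.range fun g : GK => g • x).Finite)
  (hres : IsRes v K res)

include hK hζ hζK horb hres

omit horb hres in
/-- an element of `D` moving `ζ` to `ζ^w` has `p ∤ w`. -/
theorem not_dvd_of_smul_zeta {δ : 𝔊} {w : ℕ} (hδζ : δ • ζ = ζ ^ w) : ¬ p ∣ w := by
  intro hdvd
  obtain ⟨q, rfl⟩ := hdvd
  rw [pow_mul, hζ.pow_eq_one, one_pow] at hδζ
  have h1 : δ • ζ = δ • (1 : Ω) := by rw [hδζ, smul_one]
  exact hζ.ne_one hp.out.one_lt (MulAction.injective δ h1)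

/-- **`ω = θ̄_K^m`**: the cyclotomic character in terms of the tame character of `K`. -/
theorem natCast_eq_res_pow {π : Ω} (hπK : π ∈ K) (hπ0 : π ≠ 0) {m : ℕ}
    (hlamm : v (ζ - 1) = v π ^ m) (hlam : v (ζ - 1) < 1) {s₀ : 𝔊}
    (hiso₀ : ∀ x : Ω, v (s₀ • x) = v x) (hG₀ : ∀ g ∈ GK, s₀⁻¹ * g * s₀ ∈ GK)
    {w₀ : ℕ} (hζ₀ : s₀ • ζ = ζ ^ w₀) (hres₀ : ∀ x ∈ K, v x ≤ 1 → res (s₀ • x) = res x) :
    (w₀ : κ) = res (s₀ • π / π) ^ m := by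
  have hl0 : ζ - 1 ≠ 0 := lam_ne_zero hζ
  have hlK : ζ - 1 ∈ K := K.sub_mem hζK K.one_mem
  have hvπ0 : 0 < v π := v.pos_iff.mpr hπ0
  have hπm0 : π ^ m ≠ 0 := pow_ne_zero m hπ0
  -- (a) `res (s₀ λ / λ) = w₀`
  have hratio : s₀ • (ζ - 1) / (ζ - 1) = ∑ i ∈ Finset.range w₀, ζ ^ i := by
    rw [smul_sub, smul_one, hζ₀, ← geom_sum_mul]
    field_simp
  have hSK : ∑ i ∈ Finset.range w₀, ζ ^ i ∈ K := K.sum_mem fun i _ => K.pow_mem hζK i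
  have hS1 : v (∑ i ∈ Finset.range w₀, ζ ^ i) ≤ 1 :=
    val_geom_sum_le_one v (le_of_eq (val_zeta v hζ)) w₀
  have ha : res (s₀ • (ζ - 1) / (ζ - 1)) = (w₀ : κ) := by
    rw [hratio, ← hres.natCast v w₀]
    refine (hres.eq_iff v hSK (natCast_mem K w₀) hS1 (val_natCast_le_one v w₀)).mpr ?_
    exact lt_of_le_of_lt (val_geom_sub_natCast_le v hζ w₀) hlam
  -- (b) the unit `u = λ / π^m`
  have huK : (ζ - 1) / π ^ m ∈ K := K.div_mem hlK (K.pow_mem hπK m)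
  have hvu : v ((ζ - 1) / π ^ m) = 1 := by
    rw [map_div₀, v.map_pow, hlamm, div_self (pow_ne_zero m (ne_of_gt hvπ0))]
  have hu0 : (ζ - 1) / π ^ m ≠ 0 := div_ne_zero hl0 hπm0
  have hsu0 : s₀ • ((ζ - 1) / π ^ m) ≠ 0 := fun h => hu0 ((smul_eq_zero_iff_eq s₀).mp h)
  have hsuK : s₀ • ((ζ - 1) / π ^ m) ∈ K := smul_mem_K hK hζ hζK horb s₀ hG₀ huK
  have hquotK : s₀ • ((ζ - 1) / π ^ m) / ((ζ - 1) / π ^ m) ∈ K := K.div_mem hsuK huK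
  have hquot1 : v (s₀ • ((ζ - 1) / π ^ m) / ((ζ - 1) / π ^ m)) ≤ 1 := by
    rw [map_div₀, hiso₀, hvu, div_one]
  have hresu : res (s₀ • ((ζ - 1) / π ^ m) / ((ζ - 1) / π ^ m)) = 1 := by
    have h1 : s₀ • ((ζ - 1) / π ^ m) =
        s₀ • ((ζ - 1) / π ^ m) / ((ζ - 1) / π ^ m) * ((ζ - 1) / π ^ m) := by
      field_simp
    have h2 := hres₀ _ huK (le_of_eq hvu)
    rw [h1, hres.2.1 _ hquotK _ huK hquot1 (le_of_eq hvu)] at h2
    have h3 : res ((ζ - 1) / π ^ m) ≠ 0 := by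
      intro h0
      have := (hres.2.2 _ huK (le_of_eq hvu)).mp h0
      rw [hvu] at this
      exact lt_irrefl _ this
    exact mul_right_cancel₀ h3 (h2.trans (one_mul _).symm)
  have hπK' : s₀ • π / π ∈ K := K.div_mem (smul_mem_K hK hζ hζK horb s₀ hG₀ hπK) hπK
  have hπ1' : v (s₀ • π / π) ≤ 1 := by
    rw [map_div₀, hiso₀, div_self (ne_of_gt hvπ0)]
  have hsplit : s₀ • (ζ - 1) / (ζ - 1) =
      s₀ • ((ζ - 1) / π ^ m) / ((ζ - 1) / π ^ m) * (s₀ • π / π) ^ m := by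
    have hsπ0 : s₀ • π ≠ 0 := fun h => hπ0 ((smul_eq_zero_iff_eq s₀).mp h)
    have hsl0 : s₀ • (ζ - 1) ≠ 0 := fun h => hl0 ((smul_eq_zero_iff_eq s₀).mp h)
    rw [div_eq_mul_inv (ζ - 1) (π ^ m), smul_mul', smul_inv'', smul_pow', div_pow]
    field_simp
  rw [← ha, hsplit, hres.2.1 _ hquotK _ (K.pow_mem hπK' m) hquot1
    (by rw [v.map_pow]; exact pow_le_one₀ zero_le hπ1'), hresu, one_mul, hres.pow v hπK' hπ1']

variable {k : Type*} [Field k] [CharP k p] [Finite k] (R : 𝔊 →* Matrix (Fin 2) (Fin 2) k)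
  [CharP κ p] [Finite κ]

/-- **the supersingular count from orders.** -/
theorem card_ssLev_le_of_orders (hp3 : 3 ≤ p)
    (hsurj : ∀ z : κ, ∃ x ∈ K, v x ≤ 1 ∧ res x = z)
    (hperf : ∀ a ∈ K, v a ≤ 1 → ∃ b ∈ K, v b ≤ 1 ∧ v (b ^ p - a) < 1)
    (hisoG : ∀ g ∈ GK, ∀ x : Ω, v (g • x) = v x)
    {π : Ω} (hπK : π ∈ K) (hπ0 : π ≠ 0) (hπ1 : v π < 1)
    (hdisc : ∀ x ∈ K, x ≠ 0 → ∃ n : ℤ, v x = v π ^ n)
    {e m d : ℕ} (hdm : d * m = p + 1) (he : e = m * (p - 1)) (hep : v π ^ e = v (p : Ω))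
    {s₀ φ : 𝔊} (hs₀D : s₀ ∈ Dd) (hφD : φ ∈ Dd)
    (hiso₀ : ∀ x : Ω, v (s₀ • x) = v x) (hisoφ : ∀ x : Ω, v (φ • x) = v x)
    (hG₀ : ∀ g ∈ GK, s₀⁻¹ * g * s₀ ∈ GK) (hGφ : ∀ g ∈ GK, φ⁻¹ * g * φ ∈ GK)
    {w₀ wφ : ℕ} (hζ₀ : s₀ • ζ = ζ ^ w₀) (hζφ : φ • ζ = ζ ^ wφ)
    (hres₀ : ∀ x ∈ K, v x ≤ 1 → res (s₀ • x) = res x)
    (hresφ : ∀ x ∈ K, v x ≤ 1 → res (φ • x) = res x ^ p)
    {c₀ x : k} (hx : x ≠ 0) (hcp : c₀ ^ p ≠ c₀)
    (hR₀ : R s₀ = !![c₀, 0; 0, c₀ ^ p]) (hRφ : R φ = !![0, 1; x, 0])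
    (hc₀ : orderOf c₀ = e) (hdet : c₀ ^ (p + 1) = (w₀ : k))
    (ht₀ : IsPrimitiveRoot (res (s₀ • π / π)) e) :
    Finite {h : 𝔊 → Matrix (Fin 2) (Fin 2) k //
        h ∈ HLev (p := p) v Dd GK K ζ (adAct R) (v (p : Ω)) ∧ ∀ g, (h g).trace = 0} ∧
      Nat.card {h : 𝔊 → Matrix (Fin 2) (Fin 2) k //
        h ∈ HLev (p := p) v Dd GK K ζ (adAct R) (v (p : Ω)) ∧ ∀ g, (h g).trace = 0} ≤
        Nat.card k := by
  have hpp : p.Prime := hp.out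
  have hp2 : p ≠ 2 := by omega
  have hp1 : 0 < p - 1 := by omega
  have hm0 : 0 < m := by
    rcases Nat.eq_zero_or_pos m with h | h
    · rw [h, mul_zero] at hdm; omega
    · exact h
  have he0 : 0 < e := by rw [he]; exact Nat.mul_pos hm0 hp1
  have hce : c₀ ^ e = 1 := by rw [← hc₀]; exact pow_orderOf_eq_one c₀
  have hc0 : c₀ ≠ 0 := by
    intro h
    rw [h, zero_pow he0.ne'] at hce
    exact zero_ne_one hce
  have hd0 : c₀ ^ p ≠ 0 := pow_ne_zero _ hc0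
  have hw₀ : ¬ p ∣ w₀ := not_dvd_of_smul_zeta hK hζ hζK hζ₀
  have hwφ : ¬ p ∣ wφ := not_dvd_of_smul_zeta hK hζ hζK hζφ
  have hwφk : (wφ : k) ≠ 0 := fun h => hwφ ((CharP.cast_eq_zero_iff k p wφ).1 h)
  have hvπ0 : 0 < v π := v.pos_iff.mpr hπ0
  have hlamm : v (ζ - 1) = v π ^ m := by
    have h1 : v (p : Ω) = v (ζ - 1) ^ (p - 1) := val_p_eq v hζ
    have h2 : (v π ^ m) ^ (p - 1) = v (ζ - 1) ^ (p - 1) := by rw [← pow_mul, ← he, hep, h1]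
    exact ((pow_left_inj₀ zero_le zero_le hp1.ne').1 h2).symm
  have hlam : v (ζ - 1) < 1 := by rw [hlamm]; exact pow_lt_one₀ zero_le hπ1 hm0.ne'
  have hwκ : (w₀ : κ) = res (s₀ • π / π) ^ m :=
    natCast_eq_res_pow v res hK hζ hζK horb hres hπK hπ0 hlamm hlam hiso₀ hG₀ hζ₀ hres₀
  have hθφ : res (φ • π / π) ≠ 0 := by
    have hK' : φ • π / π ∈ K := K.div_mem (smul_mem_K hK hζ hζK horb φ hGφ hπK) hπK
    have h1 : v (φ • π / π) = 1 := by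
      rw [map_div₀, hisoφ, div_self (ne_of_gt hvπ0)]
    intro h0
    have := (hres.2.2 _ hK' (le_of_eq h1)).mp h0
    rw [h1] at this
    exact lt_irrefl _ this
  by_cases hd : d = 1
  · -- the full level-two case
    have hm : m = p + 1 := by rw [hd, one_mul] at hdm; exact hdm
    have he' : e = p ^ 2 - 1 := by
      rw [he, hm]
      obtain ⟨q, rfl⟩ : ∃ q, p = q + 1 := ⟨p - 1, by omega⟩
      simp only [Nat.add_sub_cancel]
      have : (q + 1) ^ 2 = (q + 1 + 1) * q + 1 := by ring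
      omega
    have hp21 : 1 ≤ p ^ 2 := Nat.one_le_pow _ _ hpp.pos
    have he2 : e + 2 = p ^ 2 + 1 := by omega
    refine card_ssLev_le v R res hK hζ hζK horb hres hp2 hsurj hperf hisoG hπK hπ0 hπ1 hdisc hm0 he
      hep hs₀D hφD hiso₀ hisoφ hG₀ hGφ hζ₀ hζφ hw₀ hwφ hres₀ hresφ hc0 hd0 (Ne.symm hcp) hx hR₀ hRφ
      rfl rfl 2 (fun r hr hr2 Λ hΛ => ?_) ?_
    · exact tlevelGen_eq_zero hp3 hdm he hc₀ rfl hx hwφk ht₀ hwκ hdet (Nat.le_add_right e r)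
        (by omega) (Or.inr (by omega)) hΛ
    · rw [he2]
      rw [he'] at hc₀ ht₀
      rw [hm] at hwκ
      exact tlevelGen_card_le hp3 hc₀ rfl hx hwφk ht₀ hwκ hθφ hdet
  · -- a proper tame quotient: every graded piece vanishes
    refine card_ssLev_le v R res hK hζ hζK horb hres hp2 hsurj hperf hisoG hπK hπ0 hπ1 hdisc hm0 he
      hep hs₀D hφD hiso₀ hisoφ hG₀ hGφ hζ₀ hζφ hw₀ hwφ hres₀ hresφ hc0 hd0 (Ne.symm hcp) hx hR₀ hRφ
      rfl rfl 0 (fun r hr _ Λ hΛ => ?_) ?_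
    · exact tlevelGen_eq_zero hp3 hdm he hc₀ rfl hx hwφk ht₀ hwκ hdet (Nat.le_add_right e r)
        (by omega) (Or.inl hd) hΛ
    · have hsub : Subsingleton {Λ : Matrix (Fin 2) (Fin 2) k →+ κ //
          IsTMap p c₀ (c₀ ^ p) w₀ (res (s₀ • π / π) ^ (e + 0)) x wφ
            (res (φ • π / π) ^ (e + 0)) Λ} := by
        refine ⟨fun a b => Subtype.ext ?_⟩
        have ha := tlevelGen_eq_zero hp3 hdm he hc₀ rfl hx hwφk ht₀ hwκ hdet (Nat.le_add_right e 0)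
          (by omega) (Or.inl hd) a.2
        have hb := tlevelGen_eq_zero hp3 hdm he hc₀ rfl hx hwφk ht₀ hwκ hdet (Nat.le_add_right e 0)
          (by omega) (Or.inl hd) b.2
        rw [ha, hb]
      calc Nat.card _ ≤ 1 := Finite.card_le_one_iff_subsingleton.2 hsub
        _ ≤ Nat.card k := Nat.card_pos

end Final

end Fermat.Agent.GP.Flat.SSAsm
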