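/-
GATE-P / S56 [P-FLAT], node S56-FLAT-SSASM (helper50), part (B): **the class side**.

`D` a subgroup of a group `G` (the decomposition group `D_A ≤ G_ℚ`), `GK ≤ D` of finite index
invertible in `k` (prime to `p`), `R : G →* M₂(k)`.  A function cocycle `c : G → M₂(k)` for the
adjoint action on `D`,
  `c (s * t) = c s + R s * c t * R s⁻¹`   (`s t ∈ D`),
which vanishes on `GK` is a coboundary on `D` (coset averaging; NO finiteness of `D`, no
continuity: `GK` has finite index in `D`, that is all).  Consequently two such cocycles which agree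
on `GK` differ by a coboundary on `D`: **restriction `H¹(D, ad⁰) → Hom(GK, ad⁰)` is injective**.
Trace-zero cocycles get a trace-zero `X`.  Mathlib only.
-/
import Mathlib

set_option autoImplicit false

open Matrix

namespace Fermat.Agent.GP.Flat.SSAsm

section Averaging

variable {k : Type*} [Field k]

/-- Coset averaging over a subgroup of finite index invertible in `k` (no finiteness of `Γ`). -/
theorem exists_coboundary_of_vanish_of_index {Γ M : Type*} [Group Γ] [AddCommGroup M]
    [Module k M] (act : Γ → M →ₗ[k] M)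
    (ψ : Γ → M) (hcoc : ∀ g h, ψ (g * h) = ψ g + act g (ψ h))
    (P : Subgroup Γ) (hP : ∀ u ∈ P, ψ u = 0) (hidx : ((P.index : ℕ) : k) ≠ 0) :
    ∃ m ∈ Submodule.span k (Set.range ψ), ∀ g, ψ g = act g m - m := by
  classical
  have hfi : P.FiniteIndex := ⟨fun h => hidx (by rw [h, Nat.cast_zero])⟩
  have : Fintype (Γ ⧸ P) := Subgroup.fintypeQuotientOfFiniteIndex
  have hconst : ∀ g, ∀ u ∈ P, ψ (g * u) = ψ g := by
    intro g u hu
    rw [hcoc, hP u hu, map_zero, add_zero]
  let f : Γ ⧸ P → M := fun c => ψ c.out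
  have hf : ∀ g : Γ, f (g : Γ ⧸ P) = ψ g := by
    intro g
    obtain ⟨u, hu⟩ := QuotientGroup.mk_out_eq_mul P g
    show ψ (g : Γ ⧸ P).out = ψ g
    rw [hu, hconst g u.1 u.2]
  set m' : M := ∑ c : Γ ⧸ P, f c with hm'
  have hm'mem : m' ∈ Submodule.span k (Set.range ψ) :=
    Submodule.sum_mem _ fun c _ => Submodule.subset_span ⟨c.out, rfl⟩
  have hkey : ∀ h : Γ, act h m' = m' - (P.index : k) • ψ h := by
    intro h
    have h1 : ∀ c : Γ ⧸ P, act h (f c) = f (h • c) - ψ h := by
      intro c
      have hc : h • c = ((h * c.out : Γ) : Γ ⧸ P) := by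
        conv_lhs => rw [← QuotientGroup.out_eq' c]
        rfl
      rw [hc, hf, hcoc]
      show act h (ψ c.out) = _
      abel
    rw [hm', map_sum]
    simp_rw [h1]
    rw [Finset.sum_sub_distrib, Finset.sum_const, Finset.card_univ,
      (MulAction.bijective h).sum_comp f, Subgroup.index_eq_card, Nat.card_eq_fintype_card,
      Nat.cast_smul_eq_nsmul]
  refine ⟨-((P.index : k)⁻¹ • m'), Submodule.neg_mem _ (Submodule.smul_mem _ _ hm'mem),
    fun g => ?_⟩
  rw [map_neg, map_smul, hkey g, smul_sub, smul_smul, inv_mul_cancel₀ hidx, one_smul]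
  abel

end Averaging

section Matrix

variable {k : Type*} [Field k] {G : Type*} [Group G]

/-- conjugation by `g` on `M₂(k)` (any square matrices), as a `k`-linear map; `g'` plays the role
of the inverse. -/
def conjLin {n : Type*} [Fintype n] [DecidableEq n] (g g' : Matrix n n k) :
    Matrix n n k →ₗ[k] Matrix n n k where
  toFun X := g * X * g'
  map_add' X Y := by rw [Matrix.mul_add, Matrix.add_mul]
  map_smul' a X := by rw [Matrix.mul_smul, Matrix.smul_mul, RingHom.id_apply]

theorem conjLin_apply {n : Type*} [Fintype n] [DecidableEq n] (g g' X : Matrix n n k) :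
    conjLin g g' X = g * X * g' := rfl

variable {n : Type*} [Fintype n] [DecidableEq n]

/-- **a cocycle on `D` vanishing on a subgroup `GK ≤ D` of index invertible in `k` is a
coboundary on `D`**, with a trace-zero primitive when the cocycle is traceless. -/
theorem exists_coboundary_of_vanish_on (D GK : Subgroup G) (R : G →* Matrix n n k)
    (c : G → Matrix n n k)
    (hcoc : ∀ s ∈ D, ∀ t ∈ D, c (s * t) = c s + R s * c t * R s⁻¹)
    (hvan : ∀ g ∈ GK, g ∈ D → c g = 0)
    (hidx : ((GK.relIndex D : ℕ) : k) ≠ 0) :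
    ∃ X : Matrix n n k, ((∀ s ∈ D, (c s).trace = 0) → X.trace = 0) ∧
      ∀ s ∈ D, c s = R s * X * R s⁻¹ - X := by
  obtain ⟨m, hm, hmg⟩ := exists_coboundary_of_vanish_of_index (k := k) (Γ := D)
    (fun g => conjLin (R g.1) (R g.1⁻¹)) (fun g => c g.1)
    (fun g h => by
      simpa [conjLin_apply] using hcoc g.1 g.2 h.1 h.2)
    (GK.subgroupOf D) (fun u hu => hvan u.1 (Subgroup.mem_subgroupOf.mp hu) u.2) hidx
  refine ⟨m, fun htr => ?_, fun s hs => by simpa [conjLin_apply] using hmg ⟨s, hs⟩⟩
  have hle : Submodule.span k (Set.range fun g : D => c g.1) ≤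
      LinearMap.ker (Matrix.traceLinearMap n k k) := by
    rw [Submodule.span_le]
    rintro _ ⟨g, rfl⟩
    exact htr g.1 g.2
  exact hle hm

/-- **restriction to `GK` is injective on classes**: two cocycles on `D` which agree on `GK`
differ by a coboundary on `D` (in the normalisation `c' = c + X - R X R⁻¹` of `GP/Tan`). -/
theorem exists_eq_add_coboundary_of_eq_on (D GK : Subgroup G) (R : G →* Matrix n n k)
    (c c' : G → Matrix n n k)
    (hcoc : ∀ s ∈ D, ∀ t ∈ D, c (s * t) = c s + R s * c t * R s⁻¹)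
    (hcoc' : ∀ s ∈ D, ∀ t ∈ D, c' (s * t) = c' s + R s * c' t * R s⁻¹)
    (heq : ∀ g ∈ GK, g ∈ D → c g = c' g)
    (hidx : ((GK.relIndex D : ℕ) : k) ≠ 0) :
    ∃ X : Matrix n n k,
      ((∀ s ∈ D, (c s).trace = 0) → (∀ s ∈ D, (c' s).trace = 0) → X.trace = 0) ∧
      ∀ s ∈ D, c' s = c s + X - R s * X * R s⁻¹ := by
  obtain ⟨X, hX, h⟩ := exists_coboundary_of_vanish_on D GK R (fun s => c s - c' s)
    (fun s hs t ht => by
      show c (s * t) - c' (s * t) = c s - c' s + R s * (c t - c' t) * R s⁻¹
      rw [hcoc s hs t ht, hcoc' s hs t ht, Matrix.mul_sub, Matrix.sub_mul]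
      abel)
    (fun g hg hgD => by
      show c g - c' g = 0
      rw [heq g hg hgD, sub_self]) hidx
  refine ⟨X, fun htr htr' => hX fun s hs => ?_, fun s hs => ?_⟩
  · show (c s - c' s).trace = 0
    rw [Matrix.trace_sub, htr s hs, htr' s hs, sub_self]
  · have := h s hs
    have e : c s - c' s = R s * X * R s⁻¹ - X := this
    have : c' s = c s - (R s * X * R s⁻¹ - X) := by rw [← e]; abel
    rw [this]
    abel

end Matrix

end Fermat.Agent.GP.Flat.SSAsm
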