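/-
GATE-P / S56 [P-FLAT], node S56-FLAT-SSASM (helper50), part (E), the PLUG:
**`SSShape ρbar p (padicPlace p) ⟹ LocalCond ρbar b p N emb p (DetIsCyclotomic ∧ IsFlatAt) d`**
from ONE binder: the level-two instance data `SSDataHyp` at every adapted basis (helper36 SSDATA).

Chain: helper36 `LocalCondBasis.localCond_of_adapted` (WLOG adapted basis) ∘ helper25
`SSEndTr0.localCond_ss_of_card_le` (the end on the traceless part) with
`hcount := SSAsm.card_ssLev_le_of_orders` at the `ℚ̄`-frame of helper75 `SSInst`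
(`GK = gK A (ssN ρbar.ρ p)`, `K = fK`, `res = resK`) and `KB := KbSSFlat.kb_ss_flat` (helper14).
-/
import Fermat.Agent.GP.Flat.SSAsm.Final
import Fermat.Agent.GP.Flat.SSEndTr0
import Fermat.Agent.GP.Flat.KbSSFlat
import Fermat.Agent.GP.Flat.LocalCondBasis
import Fermat.Agent.GP.Flat.SSGKOpen
import Fermat.Agent.GP.Flat.FlatLocalCond
import Fermat.Agent.GP.Loc.WildInertia
import Fermat.Agent.GP.Loc.PadicPlace

set_option autoImplicit false
set_option linter.unusedSectionVars false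
set_option linter.style.haveILetI false

namespace Fermat.Agent.GP.Flat.SSAsm

open IsLocalRing Fermat.Agent.S53_helper35 Matrix Fermat.Agent.GP.Tan.Cocycle
  Fermat.Agent.GC.Prof Fermat.Agent.GC.Places Fermat.Agent.GC.Local.KR
  Fermat.Agent.GP.Core Fermat.Agent.GP.Flat.SSHlcPinned
  Fermat.Agent.GP.Flat.SSChain Fermat.Agent.GP.Flat.SSChainVec
  Fermat.Agent.GP.Flat.SSInst Fermat.Agent.GP.Flat.SSGK Fermat.Agent.GP.Flat.LocalCondBasis
  Fermat.Agent.GP.Flat.DvrInst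

section Data

variable {k : Type} [Field k] (ρbar : ResidualGaloisRep k)

/-- **the level-two instance data** of the supersingular count at a basis `b'`
(adapted: inertia literally diagonal, Frobenius literally antidiagonal). -/
def SSDataHyp (b' : Module.Basis (Fin 2) k ρbar.V) (p : ℕ)
    (A : ValuationSubring (AlgebraicClosure ℚ)) (ζ : AlgebraicClosure ℚ) : Prop :=
  ∃ (π : AlgebraicClosure ℚ) (e m d : ℕ) (s₀ φ : S53_helper35.GQ) (w₀ wφ : ℕ) (c₀ x : k),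
    π ∈ fK A (ssN ρbar.ρ p) ∧ π ≠ 0 ∧ A.valuation π < 1 ∧
    (∀ y ∈ fK A (ssN ρbar.ρ p), y ≠ 0 → ∃ n : ℤ, A.valuation y = A.valuation π ^ n) ∧
    d * m = p + 1 ∧ e = m * (p - 1) ∧
    A.valuation π ^ e = A.valuation (p : AlgebraicClosure ℚ) ∧
    s₀ ∈ A.inertiaSubgroupIn ℚ ∧ A.IsFrobeniusAt φ p ∧
    s₀ • ζ = ζ ^ w₀ ∧ φ • ζ = ζ ^ wφ ∧ x ≠ 0 ∧ c₀ ^ p ≠ c₀ ∧
    toMatRes ρbar b' s₀ = !![c₀, 0; 0, c₀ ^ p] ∧ toMatRes ρbar b' φ = !![0, 1; x, 0] ∧
    orderOf c₀ = e ∧ c₀ ^ (p + 1) = (w₀ : k) ∧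
    IsPrimitiveRoot (resK A (ssN ρbar.ρ p) (s₀ • π / π)) e

end Data

section Plug

variable {𝒪 : Type} [CommRing 𝒪] [IsLocalRing 𝒪] [Finite (ResidueField 𝒪)]
  (ρbar : ResidualGaloisRep (ResidueField 𝒪))
  (p : ℕ) [Fact p.Prime] [CharP (ResidueField 𝒪) p]

/-- **the count at the `ℚ̄`-frame** from the instance data. -/
theorem card_ss_of_data (hp3 : 3 ≤ p)
    (A : ValuationSubring (AlgebraicClosure ℚ)) (hA : (p : AlgebraicClosure ℚ) ∈ A.nonunits)
    {ζ : AlgebraicClosure ℚ} (hζ : IsPrimitiveRoot ζ p)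
    (b' : Module.Basis (Fin 2) (ResidueField 𝒪) ρbar.V)
    (hdata : SSDataHyp ρbar b' p A ζ) :
    Finite {f : S53_helper35.GQ → Matrix (Fin 2) (Fin 2) (ResidueField 𝒪) //
        f ∈ HLev (p := p) A.valuation (A.decompositionSubgroup ℚ) (gK A (ssN ρbar.ρ p))
          (fK A (ssN ρbar.ρ p)) ζ (adAct (toMatRes ρbar b'))
          (A.valuation (p : AlgebraicClosure ℚ)) ∧ ∀ g, (f g).trace = 0} ∧
      Nat.card {f : S53_helper35.GQ → Matrix (Fin 2) (Fin 2) (ResidueField 𝒪) //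
        f ∈ HLev (p := p) A.valuation (A.decompositionSubgroup ℚ) (gK A (ssN ρbar.ρ p))
          (fK A (ssN ρbar.ρ p)) ζ (adAct (toMatRes ρbar b'))
          (A.valuation (p : AlgebraicClosure ℚ)) ∧ ∀ g, (f g).trace = 0} ≤
        Nat.card (ResidueField 𝒪) := by
  have hp : p.Prime := Fact.out
  have hopen : IsOpen (ssN ρbar.ρ p : Set S53_helper35.GQ) := isOpen_ssN_residual ρbar p hp
  obtain ⟨π, e, m, d, s₀, φ, w₀, wφ, c₀, x, hπK, hπ0, hπ1, hdisc, hdm, he, hep, hs₀, hφ, hζ₀, hζφ,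
    hx, hcp, hR₀, hRφ, hc₀, hdet, ht₀⟩ := hdata
  haveI : CharP (ResidueField (locRing A (ssN ρbar.ρ p))) p := charP_kappa A _ hp hA
  haveI : Finite (ResidueField (locRing A (ssN ρbar.ρ p))) := finite_kappa A _ hp hA hopen
  have hs₀D : s₀ ∈ A.decompositionSubgroup ℚ :=
    Fermat.Agent.GP.Flat.DvrInst.inertia_le_decomp hs₀
  have hφD : φ ∈ A.decompositionSubgroup ℚ := hφ.mem_decompositionSubgroup
  exact card_ssLev_le_of_orders A.valuation (resK A (ssN ρbar.ρ p)) (hK A _) hζ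
    (zeta_mem_fK_ssN ρbar p A hζ.pow_eq_one) (horb A _) (isRes_resK A _) (toMatRes ρbar b') hp3
    (resK_surjective A _) (hperf A _ hp hA hopen) (hiso_gK A _) hπK hπ0 hπ1 hdisc hdm he hep
    hs₀D hφD (hiso A hs₀D) (hiso A hφD) (conj_mem_gK A _ hs₀D) (conj_mem_gK A _ hφD) hζ₀ hζφ
    (fun y hyK hy1 => resK_inertia A _ hs₀ y hyK hy1)
    (fun y hyK hy1 => resK_frobenius A _ hφD
      (fun a ha => Fermat.Agent.GP.Loc.WildInertia.frobenius_sub_pow_mem (A := A) hφ ha) y hyK hy1)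
    hx hcp hR₀ hRφ hc₀ hdet ht₀

variable (b : Module.Basis (Fin 2) (ResidueField 𝒪) ρbar.V)
  (N : Rep (ZMod p) S53_helper35.GQ)
  (emb : N →+ Matrix (Fin 2) (Fin 2) (ResidueField 𝒪))
  [IsDiscrete (levelQ p) (Rep.res (localGaloisToGlobal p) N)]

/-- **THE SUPERSINGULAR BRANCH** of the flat local condition at `p`, from the instance data. -/
theorem localCond_ss_of_data (hp3 : 3 ≤ p)
    (hmodel : GlobModel N (toMatRes ρbar b) emb)
    (hL : LevelTwo ρbar p (padicPlace p))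
    {ζ : AlgebraicClosure ℚ} (hζ : IsPrimitiveRoot ζ p)
    (d : ℕ) (hd : Nat.card (ResidueField 𝒪) ≤ p ^ d)
    (hdata : ∀ b' : Module.Basis (Fin 2) (ResidueField 𝒪) ρbar.V,
      IsAdapted ρbar p (padicPlace p) b' → SSDataHyp ρbar b' p (padicPlace p) ζ) :
    LocalCond ρbar b p N emb p (fun ρ => ρ.DetIsCyclotomic p ∧ ρ.IsFlatAt p) d := by
  have hp : p.Prime := Fact.out
  have hp2 : p ≠ 2 := by omega
  have hA : (p : AlgebraicClosure ℚ) ∈ (padicPlace p).nonunits :=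
    Fermat.Agent.GP.Loc.PadicPlace.padicPlace_liesOverPrime p
  refine localCond_of_adapted ρbar b p N emb hmodel hL p _ d (fun b' emb' hmodel' hb' => ?_)
  have hGK : ssGK ρbar.ρ (padicPlace p) p = gK (padicPlace p) (ssN ρbar.ρ p) :=
    ssGK_eq_gK ρbar.ρ p (padicPlace p)
  refine Fermat.Agent.GP.Flat.SSEndTr0.localCond_ss_of_card_le ρbar b' p hmodel'
    (gK (padicPlace p) (ssN ρbar.ρ p)) (fun δ hδ g hg => conj_mem_gK' (padicPlace p) _ hδ g hg)
    (fun g hg => ?_) ?_ (padicPlace p).valuation (hK (padicPlace p) _) hζ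
    (zeta_mem_fK_ssN ρbar p (padicPlace p) hζ.pow_eq_one)
    (val_p_lt_one (padicPlace p) hA) d hd
    (card_ss_of_data ρbar p hp3 (padicPlace p) hA hζ b' (hdata b' hb'))
    (Fermat.Agent.GP.Flat.KbSSFlat.kb_ss_flat ρbar b' (padicPlace p) hp hA hp3 hζ)
  · rw [← hGK] at hg
    exact toMatRes_eq_one_of_mem b' hg
  · rw [← hGK]
    exact relIndex_ssGK_ne_zero_of_levelTwo hp2 hL

end Plug

section Branch

variable {𝒪 : Type} [CommRing 𝒪] [IsLocalRing 𝒪] [Finite (ResidueField 𝒪)]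
  (ρbar : ResidualGaloisRep (ResidueField 𝒪))
  (b : Module.Basis (Fin 2) (ResidueField 𝒪) ρbar.V)
  (p : ℕ) [Fact p.Prime]
  (N : Rep (ZMod p) S53_helper35.GQ)
  (emb : N →+ Matrix (Fin 2) (Fin 2) (ResidueField 𝒪))
  [IsDiscrete (levelQ p) (Rep.res (localGaloisToGlobal p) N)]

/-- **the `hss` binder of helper90's `FlatLocalCond.localCond_flat_of_branches`** from the instance
data (`CharP k p` from the cyclotomic determinant). -/
theorem localCond_ss (hp3 : 3 ≤ p)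
    (hdet : (GaloisRepAdic.ofResidualGaloisRep ρbar).DetIsCyclotomic p)
    (hmodel : GlobModel N (toMatRes ρbar b) emb)
    {ζ : AlgebraicClosure ℚ} (hζ : IsPrimitiveRoot ζ p)
    (d : ℕ) (hd : Nat.card (ResidueField 𝒪) ≤ p ^ d)
    (hdata : ∀ b' : Module.Basis (Fin 2) (ResidueField 𝒪) ρbar.V,
      IsAdapted ρbar p (padicPlace p) b' → SSDataHyp ρbar b' p (padicPlace p) ζ)
    (hss : Fermat.Agent.GP.Flat.FlatLocalCond.SSShape ρbar p (padicPlace p)) :
    LocalCond ρbar b p N emb p (fun ρ => ρ.DetIsCyclotomic p ∧ ρ.IsFlatAt p) d := by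
  haveI : CharP (ResidueField 𝒪) p :=
    Fermat.Agent.GP.Flat.CasesFrozen.charP_of_detIsCyclotomic ρbar p hdet
  exact localCond_ss_of_data ρbar p b N emb hp3 hmodel hss.2.2.2 hζ d hd hdata

end Branch

end Fermat.Agent.GP.Flat.SSAsm
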